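import Fermat.Agent.OrdNew.Dim
import Fermat.Agent.RTan.UP

/-!
# [U1]
-/

set_option autoImplicit false
set_option linter.unusedSectionVars false

noncomputable section

namespace Fermat.Agent.OrdNew

/-- **[U1]** -/
theorem u1 : RTan.U1 := by
  intro p hp hp2 m n hn hm hpm hnm hpn E _ _ _ a A _ _ _ _ _ _ hpA ι hι r hr htr hirr hdim B hB
  obtain ⟨z, hz, h⟩ := hasLine_of_dim hp2 hpn hnm hm hB a hpA ι hι r hr
    (span_top r hirr) htr hdim
  exact ⟨z, h, hz⟩

end Fermat.Agent.OrdNew
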