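import Mathlib

/-!
# Ordinary structure from a saturated submodule: the abstract argument
-/

set_option autoImplicit false

noncomputable section

namespace Fermat.Agent.OrdNew

open IsLocalRing Matrix

section mat

variable {T : Type} [CommRing T]

theorem ch2 (N : Matrix (Fin 2) (Fin 2) T) : N * N = N.trace • N - N.det • (1 : Matrix (Fin 2) (Fin 2) T) := by
  refine Matrix.ext fun i j => ?_
  fin_cases i <;> fin_cases j <;>
    simp [Matrix.mul_apply, Fin.sum_univ_two, det_fin_two, trace_fin_two] <;> ring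

theorem sandwich (P Y : Matrix (Fin 2) (Fin 2) T) (hP : P.det = 0) :
    P * Y * P = (P * Y).trace • P := by
  rw [det_fin_two] at hP
  refine Matrix.ext fun i j => ?_
  fin_cases i <;> fin_cases j <;>
    simp only [Matrix.mul_apply, Fin.sum_univ_two, trace_fin_two, Fin.zero_eta, Fin.mk_one,
      Fin.isValue, Matrix.smul_apply, smul_eq_mul]
  · linear_combination (-(Y 1 1)) * hP
  · linear_combination (Y 0 1) * hP
  · linear_combination (Y 1 0) * hP
  · linear_combination (-(Y 0 0)) * hP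

theorem det_eq_zero_of_idem {P : Matrix (Fin 2) (Fin 2) T} (hP : P * P = P) (ht : P.trace = 1) :
    P.det = 0 := by
  have h := ch2 P
  rw [hP, ht, one_smul] at h
  have h1 : P.det • (1 : Matrix (Fin 2) (Fin 2) T) = 0 := by
    have h2 := congrArg (fun Z => P - Z) h
    simp only [sub_self, sub_sub_cancel] at h2
    exact h2.symm
  have h2 := congrFun (congrFun h1 0) 0
  simpa using h2

variable {X : Type} [AddCommGroup X] [Module T X]

/-- faithfulness of matrix actions -/
theorem psi_injective (Ψ : Matrix (Fin 2) (Fin 2) T →ₐ[T] Module.End T X)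
    (hf : ∀ t : T, (∀ x : X, t • x = 0) → t = 0) {Y : Matrix (Fin 2) (Fin 2) T} (hY : Ψ Y = 0) :
    Y = 0 := by
  refine Matrix.ext fun i j => ?_
  rw [Matrix.zero_apply]
  apply hf
  intro x
  have h1 : ∀ k : Fin 2, Matrix.single k i (1 : T) * Y * Matrix.single j k (1 : T) =
      (Y i j) • Matrix.single k k (1 : T) := by
    intro k
    rw [Matrix.single_mul_mul_single, one_mul, mul_one, Matrix.smul_single, smul_eq_mul, mul_one]
  have h2 : ∀ k : Fin 2, (Y i j) • Ψ (Matrix.single k k (1 : T)) = 0 := by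
    intro k
    rw [← map_smul, ← h1 k, map_mul, map_mul, hY, mul_zero, zero_mul]
  have h3 : (1 : Matrix (Fin 2) (Fin 2) T) = Matrix.single 0 0 1 + Matrix.single 1 1 1 := by
    refine Matrix.ext fun a b => ?_
    fin_cases a <;> fin_cases b <;> simp [Matrix.single]
  have h4 : Y i j • (Ψ 1) = 0 := by
    rw [h3, map_add, smul_add, h2, h2, add_zero]
  rw [map_one] at h4
  exact DFunLike.congr_fun h4 x

end mat

section main

variable {T : Type} [CommRing T] [IsLocalRing T] {X : Type} [AddCommGroup X] [Module T X]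
  {G : Type} [Group G]

/-- roots of the characteristic polynomial -/
theorem exists_roots [HenselianLocalRing T] (t d l : T) (hu : t - 1 - l ∈ maximalIdeal T)
    (hd : d - l ∈ maximalIdeal T) (hl : IsUnit (l - 1)) :
    ∃ a b : T, a + b = t ∧ a * b = d ∧ a - 1 ∈ maximalIdeal T ∧ IsUnit (a - b) ∧
      IsUnit (a - l) ∧ IsUnit (b - 1) := by
  have key : ∀ x y : T, IsUnit x → x - y ∈ maximalIdeal T → IsUnit y := by
    intro x y hx hxy
    by_contra hy
    have h1 := Ideal.add_mem _ hxy ((mem_maximalIdeal y).mpr hy)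
    rw [sub_add_cancel] at h1
    exact h1 hx
  let P : Polynomial T := Polynomial.X ^ 2 - Polynomial.C t * Polynomial.X + Polynomial.C d
  have hP : P.Monic := by
    have h1 : P = Polynomial.X ^ 2 + (-(Polynomial.C t * Polynomial.X) + Polynomial.C d) := by
      simp only [P]; ring
    rw [h1]
    refine Polynomial.monic_X_pow_add ?_
    refine lt_of_le_of_lt (Polynomial.degree_add_le _ _) ?_
    rw [Polynomial.degree_neg]
    refine max_lt ?_ ?_
    · refine lt_of_le_of_lt (Polynomial.degree_C_mul_X_le t) ?_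
      norm_num
    · refine lt_of_le_of_lt Polynomial.degree_C_le ?_
      norm_num
  have he : ∀ x, P.eval x = x ^ 2 - t * x + d := by
    intro x; simp [P]
  have hde : P.derivative.eval 1 = 2 - t := by
    simp [P]
    norm_num
  have h1 : P.eval 1 ∈ maximalIdeal T := by
    rw [he]
    have h2 := Ideal.sub_mem _ hd hu
    have e : d - l - (t - 1 - l) = 1 ^ 2 - t * 1 + d := by ring
    rwa [e] at h2
  have hl' : IsUnit (1 - l) := by
    have := hl.neg
    rwa [neg_sub] at this
  have h2 : IsUnit (2 - t) := by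
    refine key (1 - l) _ hl' ?_
    have e : 1 - l - (2 - t) = t - 1 - l := by ring
    rwa [e]
  obtain ⟨a, ha, ha1⟩ := HenselianLocalRing.is_henselian P hP 1 h1 (by rw [hde]; exact h2)
  have hroot : a ^ 2 - t * a + d = 0 := by
    rw [← he]; exact ha
  refine ⟨a, t - a, by ring, ?_, ha1, ?_, ?_, ?_⟩
  · linear_combination -hroot
  · refine key (2 - t) _ h2 ?_
    have e : 2 - t - (a - (t - a)) = -2 * (a - 1) := by ring
    rw [e]
    exact Ideal.mul_mem_left _ _ ha1
  · refine key (1 - l) _ hl' ?_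
    have e : 1 - l - (a - l) = -1 * (a - 1) := by ring
    rw [e]
    exact Ideal.mul_mem_left _ _ ha1
  · refine key (l - 1) _ hl ?_
    have e : l - 1 - (t - a - 1) = -1 * (t - 1 - l) + (a - 1) := by ring
    rw [e]
    exact Ideal.add_mem _ (Ideal.mul_mem_left _ _ hu) ha1

/-- Data for the abstract argument. -/
structure Dat (p : ℕ) (r : G →* Matrix (Fin 2) (Fin 2) T)
    (Ψ : Matrix (Fin 2) (Fin 2) T →ₐ[T] Module.End T X) (K : Submodule T X) (s₀ : G) (l : ℕ) :
    Prop where
  faith : ∀ t : T, (∀ x : X, t • x = 0) → t = 0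
  tf : ∀ x : X, (p : T) • x = 0 → x = 0
  sep : ∀ x : X, (∀ n : ℕ, x ∈ (maximalIdeal T ^ n) • (⊤ : Submodule T X)) → x = 0
  sat : ∀ x : X, (p : T) • x ∈ K → x ∈ K
  pmem : (p : T) ∈ maximalIdeal T
  det : (r s₀).det - (l : T) ∈ maximalIdeal T
  unit : IsUnit ((l : T) - 1)
  quo : ∀ x, Ψ (r s₀) x - x ∈ K
  cyc : ∀ x ∈ K, ∃ y, Ψ (r s₀) x - (l : T) • x = (p : T) • y
  stab : ∀ x ∈ K, Ψ (r s₀) x ∈ K

variable {p : ℕ} {r : G →* Matrix (Fin 2) (Fin 2) T}
  {Ψ : Matrix (Fin 2) (Fin 2) T →ₐ[T] Module.End T X} {K : Submodule T X} {s₀ : G} {l : ℕ}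

theorem Dat.sep' (h : Dat p r Ψ K s₀ l) (x : X) (hx : ∀ n : ℕ, ∃ y, x = ((p : T) ^ n) • y) :
    x = 0 := by
  apply h.sep
  intro n
  obtain ⟨y, rfl⟩ := hx n
  exact Submodule.smul_mem_smul (Ideal.pow_mem_pow h.pmem n) trivial

theorem Dat.trace_mem (h : Dat p r Ψ K s₀ l) : (r s₀).trace - 1 - (l : T) ∈ maximalIdeal T := by
  by_contra hu
  have hu' : IsUnit ((r s₀).trace - 1 - (l : T)) := by
    by_contra h'; exact hu ((mem_maximalIdeal _).mpr h')
  obtain ⟨v, hv⟩ := hu'.exists_left_inv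
  -- everything is in `𝔪 X`
  have key : ∀ x : X, x ∈ maximalIdeal T • (⊤ : Submodule T X) := by
    intro x
    obtain ⟨x', hx'⟩ : ∃ x', Ψ (r s₀) x' = x := ⟨Ψ (r s₀⁻¹) x, by
      rw [← Module.End.mul_apply, ← map_mul, ← map_mul, mul_inv_cancel, map_one, map_one,
        Module.End.one_apply]⟩
    obtain ⟨y, hy⟩ := h.cyc _ (h.quo x')
    have h1 : Ψ (r s₀ * r s₀) x' = (r s₀).trace • Ψ (r s₀) x' - (r s₀).det • x' := by
      rw [ch2, map_sub, map_smul, map_smul, map_one]
      rfl
    rw [map_mul, Module.End.mul_apply] at h1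
    have h2 : ((r s₀).trace - 1 - (l : T)) • x = (p : T) • y + ((r s₀).det - (l : T)) • x' := by
      rw [← hy, map_sub, h1, ← hx']
      module
    have h3 : x = v • (((r s₀).trace - 1 - (l : T)) • x) := by rw [smul_smul, hv, one_smul]
    rw [h3, h2]
    exact Submodule.smul_mem _ _ (Submodule.add_mem _ (Submodule.smul_mem_smul h.pmem trivial)
      (Submodule.smul_mem_smul h.det trivial))
  have htop : ∀ n : ℕ, (maximalIdeal T ^ n) • (⊤ : Submodule T X) = ⊤ := by
    intro n
    induction n with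
    | zero => rw [pow_zero, Ideal.one_eq_top, Submodule.top_smul]
    | succ n ih =>
      rw [pow_succ', Submodule.mul_smul, ih]
      exact top_le_iff.1 fun x _ => key x
  have h0 : ∀ x : X, x = 0 := by
    intro x
    apply h.sep
    intro n
    rw [htop]
    trivial
  have h1 : (1 : T) = 0 := h.faith 1 fun x => by rw [h0 x, smul_zero]
  exact one_ne_zero h1

/-- The projector. -/
theorem Dat.exists_proj [HenselianLocalRing T] (h : Dat p r Ψ K s₀ l) :
    ∃ P : Matrix (Fin 2) (Fin 2) T, P * P = P ∧ P.trace = 1 ∧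
      (∃ v b : T, P = v • (r s₀ - b • 1)) ∧ ∀ x, x ∈ K ↔ Ψ P x = 0 := by
  obtain ⟨a, b, hab, habd, ha1, hu1, hu2, hu3⟩ := exists_roots _ _ _ h.trace_mem h.det h.unit
  obtain ⟨v, hv⟩ := hu1.exists_left_inv
  obtain ⟨v₂, hv₂⟩ := hu2.exists_left_inv
  obtain ⟨v₃, hv₃⟩ := hu3.exists_left_inv
  set N := r s₀ with hN
  have hNN : N * N = (a + b) • N - (a * b) • (1 : Matrix (Fin 2) (Fin 2) T) := by
    rw [ch2, hab, habd]
  let P : Matrix (Fin 2) (Fin 2) T := v • (N - b • 1)
  have hNP : N * P = a • P := by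
    simp only [P]
    rw [mul_smul_comm, mul_sub, hNN, mul_smul_comm, mul_one]
    module
  have hPP : P * P = P := by
    have h1 : P * P = v • (N * P - b • P) := by
      simp only [P]
      rw [smul_mul_assoc, sub_mul, smul_mul_assoc, one_mul]
    rw [h1, hNP, ← sub_smul, smul_smul, hv, one_smul]
  have htr : P.trace = 1 := by
    simp only [P]
    rw [trace_smul, trace_sub, trace_smul, trace_one, Fintype.card_fin, ← hab, smul_eq_mul,
      smul_eq_mul, ← hv]
    push_cast
    ring
  -- kernel lemma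
  have hker : ∀ x ∈ K, Ψ N x = a • x → x = 0 := by
    intro x hxK hx
    apply h.sep'
    have key : ∀ n : ℕ, ∃ y, x = ((p : T) ^ n) • y ∧ y ∈ K ∧ Ψ N y = a • y := by
      intro n
      induction n with
      | zero => exact ⟨x, by rw [pow_zero, one_smul], hxK, hx⟩
      | succ n ih =>
        obtain ⟨y, hy, hyK, hya⟩ := ih
        obtain ⟨y', hy'⟩ := h.cyc y hyK
        rw [← hN, hya, ← sub_smul] at hy'
        have h1 : y = (p : T) • (v₂ • y') := by
          rw [smul_comm, ← hy', smul_smul, hv₂, one_smul]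
        refine ⟨v₂ • y', by rw [pow_succ, mul_smul, ← h1, ← hy], h.sat _ (by rw [← h1]; exact hyK),
          ?_⟩
        rw [← sub_eq_zero]
        apply h.tf
        rw [smul_sub, ← map_smul, ← h1, smul_comm, ← h1, hya, sub_self]
    intro n
    obtain ⟨y, hy, -⟩ := key n
    exact ⟨y, hy⟩
  have hNPx : ∀ x, Ψ N (Ψ P x) = a • Ψ P x := by
    intro x
    rw [← Module.End.mul_apply, ← map_mul, hNP, map_smul]
    rfl
  have ha : a = 1 := by
    have h1 : Ψ ((a - 1) • P) = 0 := by
      refine LinearMap.ext fun x => ?_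
      rw [map_smul, LinearMap.smul_apply, LinearMap.zero_apply]
      apply hker
      · have h2 := h.quo (Ψ P x)
        rw [← hN, hNPx] at h2
        rw [sub_smul, one_smul]
        exact h2
      · rw [map_smul, hNPx, smul_comm]
    have h2 := congrArg Matrix.trace (psi_injective Ψ h.faith h1)
    rw [trace_smul, htr, trace_zero, smul_eq_mul, mul_one] at h2
    exact sub_eq_zero.1 h2
  have hPx : ∀ x, Ψ P x = v • (Ψ N x - b • x) := by
    intro x
    simp only [P]
    rw [map_smul, map_sub, map_smul, map_one]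
    rfl
  refine ⟨P, hPP, htr, ⟨v, b, rfl⟩, fun x => ⟨fun hx => ?_, fun hx => ?_⟩⟩
  · apply hker
    · rw [hPx]
      exact K.smul_mem _ (K.sub_mem (h.stab x hx) (K.smul_mem _ hx))
    · exact hNPx x
  · have h1 : Ψ N x = b • x := by
      rw [hPx] at hx
      have h2 := congrArg (fun y => (a - b) • y) hx
      simp only [smul_smul, smul_zero] at h2
      rw [mul_comm, hv, one_smul] at h2
      exact sub_eq_zero.1 h2
    have h2 := h.quo x
    rw [← hN, h1] at h2
    have h3 : x = v₃ • (b • x - x) := by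
      have e : b • x - x = (b - 1) • x := by rw [sub_smul, one_smul]
      rw [e, smul_smul, hv₃, one_smul]
    rw [h3]
    exact K.smul_mem _ h2

variable {P : Matrix (Fin 2) (Fin 2) T} (hf : ∀ t : T, (∀ x : X, t • x = 0) → t = 0)
  (hPP : P * P = P) (hK : ∀ x, x ∈ K ↔ Ψ P x = 0)

include hf hPP hK

omit [IsLocalRing T] in
/-- stable lines -/
theorem proj_stab {σ : G} (hσ : ∀ x ∈ K, Ψ (r σ) x ∈ K) : P * r σ * (1 - P) = 0 := by
  apply psi_injective Ψ hf
  refine LinearMap.ext fun x => ?_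
  rw [map_mul, map_mul, Module.End.mul_apply, Module.End.mul_apply, LinearMap.zero_apply, ← hK]
  apply hσ
  rw [hK, ← Module.End.mul_apply, ← map_mul, mul_sub, mul_one, hPP, sub_self, map_zero,
    LinearMap.zero_apply]

omit [IsLocalRing T] hPP in
/-- trivial action on the quotient -/
theorem proj_quot {σ : G} (hσ : ∀ x, Ψ (r σ) x - x ∈ K) : P * (r σ - 1) = 0 := by
  apply psi_injective Ψ hf
  refine LinearMap.ext fun x => ?_
  rw [map_mul, Module.End.mul_apply, LinearMap.zero_apply, ← hK, map_sub, map_one]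
  exact hσ x

omit [IsLocalRing T] in
/-- the Frobenius eigenvalue -/
theorem proj_frob (htr : P.trace = 1) {s₀ φ : G} (hP : ∃ v b : T, P = v • (r s₀ - b • 1))
    (w : Module.End T X) (hw : ∀ x, w (w x) = x) (hws : ∀ x, w (Ψ (r s₀) x) = Ψ (r s₀) (w x))
    (hφK : ∀ x ∈ K, Ψ (r φ) x ∈ K) (hφ : ∀ x, Ψ (r φ) x + w x ∈ K) :
    ∃ z : T, z ^ 2 = 1 ∧ P * (r φ - z • 1) = 0 ∧ ∀ x, Ψ P (w x + z • x) = 0 := by
  have hdet := det_eq_zero_of_idem hPP htr
  have h1 : P * r φ = (P * r φ).trace • P := by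
    rw [← sandwich P (r φ) hdet]
    have h2 := proj_stab hf hPP hK hφK
    rw [mul_sub, mul_one, sub_eq_zero] at h2
    exact h2
  have hwP : ∀ x, w (Ψ P x) = Ψ P (w x) := by
    intro x
    obtain ⟨v, b, rfl⟩ := hP
    simp only [map_smul, map_sub, map_one, LinearMap.smul_apply, LinearMap.sub_apply,
      Module.End.one_apply, hws]
  set z := (P * r φ).trace with hz
  have h2 : ∀ x, Ψ P (w x) = -(z • Ψ P x) := by
    intro x
    have h3 := (hK _).1 (hφ x)
    rw [map_add, ← Module.End.mul_apply, ← map_mul, h1, map_smul, LinearMap.smul_apply,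
      add_comm] at h3
    exact eq_neg_of_add_eq_zero_left h3
  refine ⟨z, ?_, ?_, fun x => ?_⟩
  · have h3 : Ψ ((z ^ 2 - 1) • P) = 0 := by
      refine LinearMap.ext fun x => ?_
      have h4 : Ψ P (w (w x)) = z • z • Ψ P x := by
        rw [h2, h2, smul_neg, neg_neg]
      rw [hw] at h4
      rw [map_smul, LinearMap.smul_apply, LinearMap.zero_apply, sub_smul, one_smul, pow_two,
        mul_smul, ← h4, sub_self]
    have h4 := congrArg Matrix.trace (psi_injective Ψ hf h3)
    rw [trace_smul, htr, trace_zero, smul_eq_mul, mul_one] at h4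
    exact sub_eq_zero.1 h4
  · rw [mul_sub, h1, mul_smul_comm, mul_one, sub_self]
  · rw [map_add, h2, map_smul, neg_add_cancel]

end main

section field

variable {T E : Type} [CommRing T] [Field E] (ι : T →+* E)

/-- the line -/
theorem exists_line {P : Matrix (Fin 2) (Fin 2) T} (hPP : P * P = P) (htr : P.trace = 1) :
    ∃ w : Fin 2 → E, w ≠ 0 ∧ (P.map ι) *ᵥ w = 0 ∧
      ∀ v : Fin 2 → E, (P.map ι) *ᵥ v = 0 → ∃ c : E, v = c • w := by
  have h1 : P.map ι * P.map ι = P.map ι := by rw [← Matrix.map_mul, hPP]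
  have h2 : (P.map ι).trace = 1 := by
    rw [trace_fin_two, Matrix.map_apply, Matrix.map_apply, ← map_add, ← trace_fin_two, htr, map_one]
  set Q : Matrix (Fin 2) (Fin 2) E := 1 - P.map ι with hQ
  have hQ2 : Q * Q = Q := by
    rw [hQ, sub_mul, one_mul, mul_sub, mul_one, h1, sub_self, sub_zero]
  have hQt : Q.trace = 1 := by
    rw [hQ, trace_sub, trace_one, h2, Fintype.card_fin]
    norm_num
  have hQd := det_eq_zero_of_idem hQ2 hQt
  rw [det_fin_two] at hQd
  rw [trace_fin_two] at hQt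
  have hPQ : P.map ι * Q = 0 := by rw [hQ, mul_sub, mul_one, h1, sub_self]
  have hcol : ∀ j, (P.map ι) *ᵥ (fun i => Q i j) = 0 := by
    intro j
    funext i
    exact congrFun (congrFun hPQ i) j
  have hv : ∀ v : Fin 2 → E, (P.map ι) *ᵥ v = 0 → v = Q *ᵥ v := by
    intro v hv
    rw [hQ, sub_mulVec, one_mulVec, hv, sub_zero]
  have hv0 : ∀ v : Fin 2 → E, (Q *ᵥ v) 0 = Q 0 0 * v 0 + Q 0 1 * v 1 := fun v => by
    simp [mulVec, dotProduct, Fin.sum_univ_two]
  have hv1 : ∀ v : Fin 2 → E, (Q *ᵥ v) 1 = Q 1 0 * v 0 + Q 1 1 * v 1 := fun v => by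
    simp [mulVec, dotProduct, Fin.sum_univ_two]
  by_cases h0 : Q 0 0 = 0
  · have h3 : Q 1 1 = 1 := by rw [h0, zero_add] at hQt; exact hQt
    refine ⟨fun i => Q i 1, fun h => ?_, hcol 1, fun v hv' => ?_⟩
    · have := congrFun h 1
      simp only [Pi.zero_apply] at this
      rw [h3] at this
      exact one_ne_zero this
    · refine ⟨v 1, ?_⟩
      have h4 := hv v hv'
      have e0 : v 0 = Q 0 0 * v 0 + Q 0 1 * v 1 := by rw [← hv0, ← h4]
      rw [h0, zero_mul, zero_add] at e0
      funext i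
      fin_cases i
      · change v 0 = v 1 * Q 0 1
        rw [mul_comm, ← e0]
      · change v 1 = v 1 * Q 1 1
        rw [h3, mul_one]
  · refine ⟨fun i => Q i 0, fun h => h0 (congrFun h 0), hcol 0, fun v hv' => ?_⟩
    refine ⟨v 0 / Q 0 0, ?_⟩
    have h4 := hv v hv'
    have e0 : v 0 = Q 0 0 * v 0 + Q 0 1 * v 1 := by rw [← hv0, ← h4]
    have e1 : v 1 = Q 1 0 * v 0 + Q 1 1 * v 1 := by rw [← hv1, ← h4]
    funext i
    fin_cases i
    · change v 0 = v 0 / Q 0 0 * Q 0 0
      field_simp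
    · change v 1 = v 0 / Q 0 0 * Q 1 0
      field_simp
      linear_combination (-(Q 1 0)) * e0 + Q 0 0 * e1 + v 1 * hQd
end field

end Fermat.Agent.OrdNew
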