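import Fermat.Agent.OrdNew.Rel
import Mathlib.RingTheory.Flat.Equalizer
import Mathlib.RingTheory.Flat.TorsionFree
import Mathlib.NumberTheory.Padics.PadicIntegers

/-!
# Base change of saturated submodules of `ℤ_p`-lattices
-/

set_option autoImplicit false

noncomputable section

namespace Fermat.Agent.OrdNew

open IsLocalRing
open scoped TensorProduct

section gen

variable {R O : Type} [CommRing R] [CommRing O] [Algebra R O] {M N : Type} [AddCommGroup M]
  [Module R M] [AddCommGroup N] [Module R N]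

theorem bc_ind {U : Submodule R M} {P : O ⊗[R] M → Prop} (h0 : P 0)
    (ha : ∀ x y, P x → P y → P (x + y)) (ht : ∀ (o : O), ∀ u ∈ U, P (o ⊗ₜ u)) {x : O ⊗[R] M}
    (hx : x ∈ U.baseChange O) : P x := by
  obtain ⟨y, rfl⟩ := hx
  induction y using TensorProduct.induction_on with
  | zero => rw [map_zero]; exact h0
  | tmul o u => rw [LinearMap.baseChange_tmul]; exact ht o _ u.2
  | add x y hx hy => rw [map_add]; exact ha _ _ hx hy

theorem bc_mem (f : M →ₗ[R] N) {U : Submodule R M} {V : Submodule R N} (h : ∀ x ∈ U, f x ∈ V)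
    {x : O ⊗[R] M} (hx : x ∈ U.baseChange O) : f.baseChange O x ∈ V.baseChange O := by
  refine bc_ind (P := fun x => f.baseChange O x ∈ V.baseChange O) ?_ ?_ ?_ hx
  · rw [map_zero]; exact Submodule.zero_mem _
  · intro x y hx hy
    rw [map_add]; exact Submodule.add_mem _ hx hy
  · intro o u hu
    rw [LinearMap.baseChange_tmul]
    exact Submodule.tmul_mem_baseChange_of_mem o (h u hu)

theorem bc_div (f : M →ₗ[R] N) {U : Submodule R M} (q : R) (h : ∀ x ∈ U, ∃ y, f x = q • y)
    {x : O ⊗[R] M} (hx : x ∈ U.baseChange O) : ∃ y, f.baseChange O x = (algebraMap R O q) • y := by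
  refine bc_ind (P := fun x => ∃ y, f.baseChange O x = (algebraMap R O q) • y) ?_ ?_ ?_ hx
  · exact ⟨0, by rw [map_zero, smul_zero]⟩
  · rintro x y ⟨a, ha⟩ ⟨b, hb⟩
    exact ⟨a + b, by rw [map_add, ha, hb, smul_add]⟩
  · intro o u hu
    obtain ⟨y, hy⟩ := h u hu
    refine ⟨o ⊗ₜ y, ?_⟩
    rw [LinearMap.baseChange_tmul, hy, TensorProduct.tmul_smul, algebraMap_smul]

theorem mem_bc_ker [Module.Flat R O] (f : M →ₗ[R] N) {x : O ⊗[R] M} :
    x ∈ (LinearMap.ker f).baseChange O ↔ f.baseChange O x = 0 := by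
  have h := Module.Flat.ker_lTensor_eq (R := R) O O f
  constructor
  · intro hx
    have h1 : x ∈ LinearMap.ker (TensorProduct.AlgebraTensorModule.lTensor O O f) := by
      rw [h]; exact hx
    exact h1
  · intro hx
    have h1 : x ∈ LinearMap.ker (TensorProduct.AlgebraTensorModule.lTensor O O f) := hx
    rw [h] at h1
    exact h1

end gen

section padic

variable {p : ℕ} [hp : Fact p.Prime] {O : Type} [CommRing O] [IsDomain O] [Algebra ℤ_[p] O]
  {M : Type} [AddCommGroup M] [Module ℤ_[p] M]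

theorem torsionFree_of_p (h : ∀ x : M, (p : ℤ_[p]) • x = 0 → x = 0) :
    Module.IsTorsionFree ℤ_[p] M := by
  have hpow : ∀ (n : ℕ) (x : M), ((p : ℤ_[p]) ^ n) • x = 0 → x = 0 := by
    intro n
    induction n with
    | zero => intro x hx; rwa [pow_zero, one_smul] at hx
    | succ n ih =>
      intro x hx
      rw [pow_succ, mul_smul] at hx
      exact h x (ih _ hx)
  refine ⟨fun a ha x y hxy => ?_⟩
  have ha0 : a ≠ 0 := ha.ne_zero
  have h1 : a • (x - y) = 0 := by
    rw [smul_sub, sub_eq_zero]; exact hxy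
  rw [PadicInt.unitCoeff_spec ha0, mul_smul] at h1
  have h2 : ((p : ℤ_[p]) ^ a.valuation) • (x - y) = 0 := by
    have h3 := congrArg (fun z => ((PadicInt.unitCoeff ha0)⁻¹ : (ℤ_[p])ˣ).val • z) h1
    simp only [smul_zero, smul_smul, Units.inv_mul, one_smul] at h3
    rw [← mul_assoc, Units.inv_mul, one_mul] at h3
    exact h3
  exact sub_eq_zero.1 (hpow _ _ h2)

variable (O) in
theorem bc_torsionFree (h : ∀ x : M, (p : ℤ_[p]) • x = 0 → x = 0) (hp0 : (p : O) ≠ 0)
    {x : O ⊗[ℤ_[p]] M} {o : O} (ho : o ≠ 0) (hx : o • x = 0) : x = 0 := by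
  have h1 := torsionFree_of_p h
  have h2 : Module.Flat ℤ_[p] M := inferInstance
  have h3 : Module.Flat O (O ⊗[ℤ_[p]] M) := inferInstance
  have h4 : Module.IsTorsionFree O (O ⊗[ℤ_[p]] M) := inferInstance
  have h5 := h4.isSMulRegular (r := o) (IsRegular.of_ne_zero ho)
  exact h5 (hx.trans (smul_zero o).symm)

theorem flat_O (hp0 : (p : O) ≠ 0) : Module.Flat ℤ_[p] O := by
  have h1 : Module.IsTorsionFree ℤ_[p] O := torsionFree_of_p fun x hx => by
    rw [← algebraMap_smul O (p : ℤ_[p]) x, map_natCast, smul_eq_mul] at hx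
    exact (mul_eq_zero.1 hx).resolve_left hp0
  infer_instance

/-- saturation -/
theorem bc_sat (hp0 : (p : O) ≠ 0) {U : Submodule ℤ_[p] M}
    (hU : ∀ x, (p : ℤ_[p]) • x ∈ U → x ∈ U) {x : O ⊗[ℤ_[p]] M} {o : O} (ho : o ≠ 0)
    (hx : o • x ∈ U.baseChange O) : x ∈ U.baseChange O := by
  have h0 := flat_O (p := p) (O := O) hp0
  have h1 : LinearMap.ker U.mkQ = U := Submodule.ker_mkQ U
  rw [← h1] at hx ⊢
  rw [mem_bc_ker] at hx ⊢
  rw [map_smul] at hx
  refine bc_torsionFree O (M := M ⧸ U) (fun y hy => ?_) hp0 ho hx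
  obtain ⟨y, rfl⟩ := U.mkQ_surjective y
  rw [← map_smul, Submodule.mkQ_apply, Submodule.Quotient.mk_eq_zero] at hy
  rw [Submodule.mkQ_apply, Submodule.Quotient.mk_eq_zero]
  exact hU y hy

end padic

end Fermat.Agent.OrdNew
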