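import Fermat.Agent.OrdNew.MainAbs

/-!
# Descent and dimension count for eigenspaces
-/

set_option autoImplicit false
set_option linter.unusedSectionVars false

noncomputable section

namespace Fermat.Agent.OrdNew

open scoped TensorProduct

local notation "Qb" => AlgebraicClosure ℚ

variable {p : ℕ} [hp : Fact p.Prime] {A : ValuationSubring Qb} {ι : Type} {num : ι → ℕ}
  {Λ Λ' : Type} [AddCommGroup Λ] [Module ℤ_[p] Λ] [AddCommGroup Λ'] [Module ℤ_[p] Λ']
  (D : LamDat p A ι num Λ Λ')

section rT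

variable {R B C : Type} [CommRing R] [AddCommGroup B] [Module R B] [AddCommGroup C] [Module R C]
  {M N : Type} [AddCommGroup M] [Module R M] [AddCommGroup N] [Module R N]

theorem rT_lT (f : B →ₗ[R] C) (g : M →ₗ[R] N) (x : B ⊗[R] M) :
    f.rTensor N (g.lTensor B x) = g.lTensor C (f.rTensor M x) := by
  rw [← LinearMap.comp_apply, ← LinearMap.comp_apply, LinearMap.rTensor_comp_lTensor,
    LinearMap.lTensor_comp_rTensor]

end rT

variable {O : Type} [CommRing O] [IsDomain O] [Algebra ℤ_[p] O] {E : Type} [Field E]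
  [Algebra ℤ_[p] E] (j : O →ₐ[ℤ_[p]] E) (hj : Function.Injective j)
  [Module.Free ℤ_[p] Λ] [Module.Finite ℤ_[p] Λ] [Module.Free ℤ_[p] Λ'] (t : ι → O)

include hj in
/-- **Descent.** -/
theorem LamDat.descend (h : ∃ x ∈ D.X E (fun i => j (t i)), x ≠ 0) : ∃ y ∈ D.X O t, y ≠ 0 := by
  classical
  obtain ⟨x, ⟨hT, ha, hb⟩, hx0⟩ := h
  let K := FractionRing O
  let _ : Algebra K E := (IsFractionRing.lift hj).toAlgebra
  have hK : ∀ o : O, algebraMap K E (algebraMap O K o) = j o := fun o =>
    IsFractionRing.lift_algebraMap hj o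
  have htow : IsScalarTower ℤ_[p] K E := IsScalarTower.of_algebraMap_eq fun c => by
    rw [IsScalarTower.algebraMap_apply ℤ_[p] O K, hK, AlgHom.commutes]
  let b := Module.finBasis ℤ_[p] Λ
  let bE := b.baseChange E
  let bK := b.baseChange K
  let bO := b.baseChange O
  obtain ⟨k, hk⟩ : ∃ k, bE.repr x k ≠ 0 := by
    by_contra h
    push Not at h
    exact hx0 (bE.repr.injective (by rw [map_zero]; exact Finsupp.ext h))
  obtain ⟨lam, hlam⟩ : ∃ lam : Module.Dual K E, lam (bE.repr x k) ≠ 0 := by
    by_contra h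
    push Not at h
    exact hk ((Module.forall_dual_apply_eq_zero_iff K _).1 h)
  obtain ⟨d, hd⟩ := IsLocalization.exist_integer_multiples_of_finite (nonZeroDivisors O)
    (fun i => lam (bE.repr x i))
  choose c hc using hd
  have hd0 : algebraMap O K d ≠ 0 := by
    intro h
    exact nonZeroDivisors.coe_ne_zero d ((FaithfulSMul.algebraMap_injective O K)
      (h.trans (map_zero _).symm))
  -- the two maps
  let F : E →ₗ[ℤ_[p]] K := (algebraMap O K d • lam).restrictScalars ℤ_[p]
  let G : O →ₗ[ℤ_[p]] K := (IsScalarTower.toAlgHom ℤ_[p] O K).toLinearMap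
  have hG : ∀ o, G o = algebraMap O K o := fun o => rfl
  have hGinj : Function.Injective G := FaithfulSMul.algebraMap_injective O K
  let y : O ⊗[ℤ_[p]] Λ := ∑ i, c i ⊗ₜ b i
  have hxs : x = ∑ i, bE.repr x i ⊗ₜ[ℤ_[p]] b i := by
    conv_lhs => rw [← bE.sum_repr x]
    refine Finset.sum_congr rfl fun i _ => ?_
    rw [Module.Basis.baseChange_apply, TensorProduct.smul_tmul', smul_eq_mul, mul_one]
  have hFx : F.rTensor Λ x = ∑ i, F (bE.repr x i) ⊗ₜ[ℤ_[p]] b i := by
    conv_lhs => rw [hxs]
    rw [map_sum]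
    rfl
  have hFG : F.rTensor Λ x = G.rTensor Λ y := by
    rw [hFx, map_sum]
    refine Finset.sum_congr rfl fun i _ => ?_
    rw [LinearMap.rTensor_tmul]
    congr 1
    rw [hG]
    refine Eq.trans ?_ (hc i).symm
    exact (Algebra.smul_def (d : O) (lam (bE.repr x i))).symm
  have hGi : Function.Injective (G.rTensor Λ) :=
    Module.Flat.rTensor_preserves_injective_linearMap G hGinj
  refine ⟨y, ⟨fun i => hGi ?_, ?_, ?_⟩, fun h0 => ?_⟩
  · have e1 : G.rTensor Λ ((D.T i).baseChange O y) = (D.T i).lTensor K (G.rTensor Λ y) :=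
      rT_lT G (D.T i) y
    have e2 : F.rTensor Λ ((D.T i).baseChange E x) = (D.T i).lTensor K (F.rTensor Λ x) :=
      rT_lT F (D.T i) x
    have e3 : ∀ z : E ⊗[ℤ_[p]] Λ, F.rTensor Λ (j (t i) • z) =
        algebraMap O K (t i) • F.rTensor Λ z := by
      intro z
      induction z using TensorProduct.induction_on with
      | zero => rw [smul_zero, map_zero, smul_zero]
      | add z w hz hw => rw [smul_add, map_add, hz, hw, map_add, smul_add]
      | tmul u v =>
        rw [TensorProduct.smul_tmul', LinearMap.rTensor_tmul, LinearMap.rTensor_tmul,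
          TensorProduct.smul_tmul']
        congr 1
        show algebraMap O K d * lam (j (t i) * u) = algebraMap O K (t i) * (algebraMap O K d * lam u)
        have e6 : j (t i) * u = (algebraMap O K (t i)) • u := by rw [Algebra.smul_def, hK]
        rw [e6, map_smul, smul_eq_mul]
        ring
    have e4 : ∀ z : O ⊗[ℤ_[p]] Λ, G.rTensor Λ (t i • z) =
        algebraMap O K (t i) • G.rTensor Λ z := by
      intro z
      induction z using TensorProduct.induction_on with
      | zero => rw [smul_zero, map_zero, smul_zero]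
      | add z w hz hw => rw [smul_add, map_add, hz, hw, map_add, smul_add]
      | tmul u v =>
        rw [TensorProduct.smul_tmul', LinearMap.rTensor_tmul, LinearMap.rTensor_tmul,
          TensorProduct.smul_tmul']
        congr 1
        exact map_mul (algebraMap O K) _ _
    rw [e1, ← hFG, ← e2, hT, e3, hFG, e4]
  · have hGi' : Function.Injective (G.rTensor Λ') :=
      Module.Flat.rTensor_preserves_injective_linearMap G hGinj
    apply hGi'
    have e1 : G.rTensor Λ' (D.aL.baseChange O y) = D.aL.lTensor K (G.rTensor Λ y) :=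
      rT_lT G D.aL y
    have e2 : F.rTensor Λ' (D.aL.baseChange E x) = D.aL.lTensor K (F.rTensor Λ x) :=
      rT_lT F D.aL x
    rw [e1, ← hFG, ← e2, ha, map_zero, map_zero]
  · have hGi' : Function.Injective (G.rTensor Λ') :=
      Module.Flat.rTensor_preserves_injective_linearMap G hGinj
    apply hGi'
    have e1 : G.rTensor Λ' (D.bL.baseChange O y) = D.bL.lTensor K (G.rTensor Λ y) :=
      rT_lT G D.bL y
    have e2 : F.rTensor Λ' (D.bL.baseChange E x) = D.bL.lTensor K (F.rTensor Λ x) :=
      rT_lT F D.bL x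
    rw [e1, ← hFG, ← e2, hb, map_zero, map_zero]
  · have h1 : F.rTensor Λ x = 0 := by rw [hFG, h0, map_zero]
    have h2 : bK.repr (F.rTensor Λ x) k = algebraMap O K d * lam (bE.repr x k) := by
      rw [hFx, map_sum, Finsupp.finsetSum_apply]
      have e5 : ∀ i, F (bE.repr x i) ⊗ₜ[ℤ_[p]] b i = F (bE.repr x i) • bK i := fun i => by
        rw [Module.Basis.baseChange_apply, TensorProduct.smul_tmul', smul_eq_mul, mul_one]
      rw [Finset.sum_eq_single k]
      · rw [e5, map_smul, Module.Basis.repr_self, Finsupp.smul_apply, Finsupp.single_eq_same,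
          smul_eq_mul, mul_one]
        rfl
      · intro i _ hi
        rw [e5, map_smul, Module.Basis.repr_self, Finsupp.smul_apply,
          Finsupp.single_eq_of_ne hi.symm, smul_zero]
      · intro h; exact absurd (Finset.mem_univ k) h
    rw [h1, map_zero] at h2
    exact mul_ne_zero hd0 hlam h2.symm

section ker

variable {X Y : Type} [AddCommGroup X] [Module E X] [AddCommGroup Y] [Module E Y]
  [FiniteDimensional E X] [FiniteDimensional E Y]

theorem exists_ker (V : Submodule E X) (V' : Submodule E Y) (a b : X →ₗ[E] Y)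
    (ha : ∀ x ∈ V, a x ∈ V') (hb : ∀ x ∈ V, b x ∈ V')
    (h : 2 * Module.finrank E V' < Module.finrank E V) : ∃ x ∈ V, x ≠ 0 ∧ a x = 0 ∧ b x = 0 := by
  let f : V →ₗ[E] V' × V' := (a.restrict ha).prod (b.restrict hb)
  have h3 : Module.finrank E (V' × V') < Module.finrank E V := by
    rw [Module.finrank_prod, ← two_mul]; exact h
  have h4 : LinearMap.ker f ≠ ⊥ := LinearMap.ker_ne_bot_of_finrank_lt h3
  obtain ⟨x, hx, hx0⟩ := Submodule.exists_mem_ne_zero_of_ne_bot h4
  have h5 : f x = 0 := hx
  exact ⟨x, x.2, fun h => hx0 (Subtype.ext h), congrArg (fun z : V' × V' => (z.1 : Y)) h5,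
    congrArg (fun z : V' × V' => (z.2 : Y)) h5⟩

end ker

section count

variable (b : ι → E)

/-- eigenspaces -/
def eigT (T : ι → Module.End ℤ_[p] Λ) : Submodule E (E ⊗[ℤ_[p]] Λ) where
  carrier := {x | ∀ i, (T i).baseChange E x = b i • x}
  add_mem' := fun {x y} h1 h2 i => by rw [map_add, h1, h2, smul_add]
  zero_mem' := fun i => by rw [map_zero, smul_zero]
  smul_mem' := fun c x h1 i => by rw [map_smul, h1, smul_comm]

theorem mem_eigT {T : ι → Module.End ℤ_[p] Λ} {x : E ⊗[ℤ_[p]] Λ} :
    x ∈ eigT b T ↔ ∀ i, (T i).baseChange E x = b i • x := Iff.rfl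

/-- **Dimension count.** -/
theorem LamDat.exists_of_finrank [Module.Finite ℤ_[p] Λ']
    (h : 2 * Module.finrank E (eigT b D.T') < Module.finrank E (eigT b D.T)) :
    ∃ x ∈ D.X E b, x ≠ 0 := by
  have h1 : ∀ x ∈ eigT b D.T, D.aL.baseChange E x ∈ eigT b D.T' := fun x hx i => by
    rw [← LinearMap.comp_apply, ← LinearMap.baseChange_comp, ← D.aT,
      LinearMap.baseChange_comp, LinearMap.comp_apply, hx i, map_smul]
  have h2 : ∀ x ∈ eigT b D.T, D.bL.baseChange E x ∈ eigT b D.T' := fun x hx i => by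
    rw [← LinearMap.comp_apply, ← LinearMap.baseChange_comp, ← D.bT,
      LinearMap.baseChange_comp, LinearMap.comp_apply, hx i, map_smul]
  obtain ⟨x, hx, hx0, ha, hb⟩ := exists_ker (X := E ⊗[ℤ_[p]] Λ) (Y := E ⊗[ℤ_[p]] Λ')
    (eigT b D.T) (eigT b D.T') (D.aL.baseChange E) (D.bL.baseChange E) h1 h2 h
  exact ⟨x, ⟨hx, ha, hb⟩, hx0⟩

end count

end Fermat.Agent.OrdNew
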