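import Fermat.Agent.OrdNew.Main
import Fermat.Agent.OrdNew.Desc
import Fermat.Agent.TWDeg.EigSp
import Fermat.Agent.RTan.Pts

/-!
# ORD-NEW, multiplicity form
-/

set_option autoImplicit false
set_option linter.unusedSectionVars false

noncomputable section

namespace Fermat.Agent.OrdNew

open ModularCurve AlgebraicCurve CongruenceSubgroup ModularCurve.Period
open Fermat.Agent.ZDegI Fermat.Agent.HeckeHom Fermat.Agent.TorsCmp
open Fermat.Agent.DefRing (GQ M2 MatCont mapRep)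
open Fermat.Agent.TWDeg (eigSp)
open Fermat.Agent.RTan (HasLine)
open IsLocalRing Matrix
open scoped TensorProduct MatrixGroups

local notation "Qb" => AlgebraicClosure ℚ

section fin

variable {p : ℕ} [hp : Fact p.Prime] {E : Type} [Field E] [CharZero E] [Algebra ℤ_[p] E]
  {n m m' : ℕ} [NeZero n]

theorem finrank_eigT (hn : n ∣ m') (h : ∀ s : ℕ, s.Prime → (s ∣ m ↔ s ∣ m')) (a : ℕ → E) :
    Module.finrank E (eigT (p := p) (Λ := Lm p n) (fun i : TW.Pr m' => a i) (heckeFam p hn)) =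
      Module.finrank E (eigSp E m n a) := by
  let f : E ⊗[ℤ_[p]] Lm p n →ₗ[E] (Additive (Gamma0 n) →+ E) :=
    (parabolicHoms E (Gamma0 n) E).subtype ∘ₗ kap E n
  have hf : Function.Injective f := (Submodule.injective_subtype _).comp (kap_bijective E n).1
  have h1 : (eigT (p := p) (Λ := Lm p n) (fun i : TW.Pr m' => a i) (heckeFam p hn)).map f = eigSp E m n a := by
    ext φ
    constructor
    · rintro ⟨x, hx, rfl⟩
      refine ⟨(kap E n x).2, fun s hs hsn hsm => ?_⟩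
      have h2 := congrArg (kap E n) (hx ⟨s, hs, fun h' => hsm ((h s hs).2 h')⟩)
      rw [map_smul] at h2
      exact congrArg Subtype.val ((kap_hecke E n hs hsn x).symm.trans h2)
    · rintro ⟨h1, h2⟩
      obtain ⟨x, hx⟩ := (kap_bijective (p := p) E n).2 ⟨φ, h1⟩
      refine ⟨x, fun i => (kap_bijective E n).1 ?_, by
        rw [LinearMap.comp_apply, hx]; rfl⟩
      have h3 : ¬ (i : ℕ) ∣ n := fun h' => i.2.2 (h'.trans hn)
      rw [map_smul]
      refine (kap_hecke E n i.2.1 h3 x).trans (Subtype.ext ?_)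
      rw [hx]
      exact h2 i i.2.1 h3 fun h' => i.2.2 ((h i i.2.1).1 h')
  rw [← h1]
  exact LinearEquiv.finrank_eq (Submodule.equivMapOfInjective f hf _)

end fin

variable {p : ℕ} [hp : Fact p.Prime] (hp2 : p ≠ 2) {n m : ℕ} [NeZero n] (hpn : ¬ p ∣ n)
  (hnm : ∀ q : ℕ, q.Prime → q ∣ n * p → q ∣ m) (hm0 : m ≠ 0)
  {A : ValuationSubring Qb} (hA : A.LiesOverPrime p)
  {E : Type} [Field E] [CharZero E] (a : ℕ → E)
  {O : Type} [CommRing O] [IsDomain O] [IsLocalRing O] [IsNoetherianRing O]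
  [IsAdicComplete (maximalIdeal O) O] [CharZero O]
  (hpO : (p : O) ∈ maximalIdeal O) (ι : O →+* E) (hι : Function.Injective ι)
  (ρ : GQ →* M2 O) (hc : MatCont O ρ) (hspan : Submodule.span O (Set.range ρ) = ⊤)
  (htr : ∀ s : ℕ, s.Prime → ¬ s ∣ m → ∀ B : ValuationSubring Qb, B.LiesOverPrime s →
    ∀ σ : GQ, B.IsFrobeniusAt σ s → ι (ρ σ).trace = a s ∧ (ρ σ).det = (s : O))
  (hdim : 2 * Module.finrank E (eigSp E m n a) < Module.finrank E (eigSp E m (n * p) a))

include hp2 hpn hnm hm0 hA hpO hι hc hspan htr hdim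

/-- **ORD-NEW**, multiplicity form. -/
theorem hasLine_of_dim : ∃ z : E, z ^ 2 = 1 ∧ HasLine p A (mapRep ι ρ) z := by
  let _ : Algebra ℤ_[p] O := (QuadRep.padicHom p O hpO).toAlgebra
  let _ : Algebra ℤ_[p] E := (ι.comp (QuadRep.padicHom p O hpO)).toAlgebra
  let j : O →ₐ[ℤ_[p]] E := { ι with commutes' := fun _ => rfl }
  have hnp : NeZero (n * p) := ⟨mul_ne_zero (NeZero.ne n) hp.out.ne_zero⟩
  have hNM : n ∣ n * p := Dvd.intro p rfl
  have hE : ZAL.ExDiv p (n * p) := ⟨Dvd.intro_left n rfl, by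
    rw [Nat.mul_div_cancel _ hp.out.pos]
    exact (Nat.Prime.coprime_iff_not_dvd hp.out).mpr hpn⟩
  let m' : ℕ := m * (n * p)
  have hm : n * p ∣ m' := Dvd.intro_left m rfl
  have hm0' : m' ≠ 0 := mul_ne_zero hm0 (NeZero.ne _)
  have hiff : ∀ s : ℕ, s.Prime → (s ∣ m ↔ s ∣ m') := by
    intro s hs
    refine ⟨fun h => h.mul_right _, fun h => ?_⟩
    rcases (Nat.Prime.dvd_mul hs).mp h with h | h
    · exact h
    · exact hnm s hs h
  have htr' : ∀ s : ℕ, s.Prime → ¬ s ∣ m' → ∀ B : ValuationSubring Qb, B.LiesOverPrime s →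
      ∀ σ : GQ, B.IsFrobeniusAt σ s → ι (ρ σ).trace = a s := fun s hs hsm B hB σ hσ =>
    (htr s hs (fun h => hsm ((hiff s hs).1 h)) B hB σ hσ).1
  have hdet' : ∀ s : ℕ, s.Prime → ¬ s ∣ m' → ∀ B : ValuationSubring Qb, B.LiesOverPrime s →
      ∀ σ : GQ, B.IsFrobeniusAt σ s → (ρ σ).det = (s : O) := fun s hs hsm B hB σ hσ =>
    (htr s hs (fun h => hsm ((hiff s hs).1 h)) B hB σ hσ).2
  obtain ⟨D, hDT, hDT', hDa, hDb⟩ := exists_lamDat p rfl hNM hpn hm hE A hA
  obtain ⟨t, hta, ht⟩ := exists_traces (m := m') a ι hι ρ htr'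
  have hfree : Module.Free ℤ_[p] (Lm p (n * p)) :=
    Module.Free.of_basis (parBasis (n * p) ℤ_[p])
  have hfin : Module.Finite ℤ_[p] (Lm p (n * p)) :=
    Module.Finite.of_basis (parBasis (n * p) ℤ_[p])
  have hfree' : Module.Free ℤ_[p] (Lm p n) := Module.Free.of_basis (parBasis n ℤ_[p])
  have hfin' : Module.Finite ℤ_[p] (Lm p n) := Module.Finite.of_basis (parBasis n ℤ_[p])
  have hd : 2 * Module.finrank E (eigT (p := p) (Λ := Lm p n) (fun i : TW.Pr m' => a i) D.T') <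
      Module.finrank E (eigT (p := p) (Λ := Lm p (n * p)) (fun i : TW.Pr m' => a i) D.T) := by
    rw [hDT, hDT', finrank_eigT (m := m) _ hiff a, finrank_eigT (m := m) _ hiff a]
    exact hdim
  have hx := D.exists_of_finrank (fun i : TW.Pr m' => a i) hd
  have hx' : ∃ x ∈ D.X E (fun i => j (t i)), x ≠ 0 := by
    have e : (fun i => j (t i)) = (fun i : TW.Pr m' => a i) := funext fun i => hta i
    rw [e]; exact hx
  have hX := D.descend j hι t hx'
  obtain ⟨w, hw, h1, h2, z, hz, h3⟩ := line_of_projector ι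
    (projector_core hp2 hm0' hA hpO ρ hc hspan hdet' t ht D hX)
  exact ⟨z, hz, w, hw, h1, h2, h3⟩

end Fermat.Agent.OrdNew
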