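import Fermat.Agent.OrdNew.MainAbs
import Fermat.Agent.ZLoc2.Lam
import Fermat.Agent.ZDegI.Defs
import Fermat.Agent.ZAL.WComm
import Fermat.Agent.NewPoint.Final

/-!
# The lattice data of `J₀(N p)` at `p`
-/

set_option autoImplicit false
set_option linter.unusedSectionVars false

noncomputable section

namespace Fermat.Agent.OrdNew

open ModularCurve AlgebraicCurve CongruenceSubgroup ModularCurve.Period
open Fermat.Agent.ZDegI Fermat.Agent.ZAL Fermat.Agent.ZLoc2 Fermat.Agent.HeckeHom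
open Fermat.Agent.TorsCmp Fermat.Agent.X0Places Fermat.Agent.Tate
open scoped Pointwise

local notation "Qb" => AlgebraicClosure ℚ
local notation "GQ" => AlgebraicClosure ℚ ≃ₐ[ℚ] AlgebraicClosure ℚ

variable (p : ℕ) [hp : Fact p.Prime] {N M m : ℕ} [NeZero N] [NeZero M]

theorem lm_tf {x : Lm p M} (hx : (p : ℤ_[p]) • x = 0) : x = 0 := by
  have h0 : (p : ℤ_[p]) ≠ 0 := Nat.cast_ne_zero.mpr hp.out.ne_zero
  apply Subtype.ext
  have h1 := congrArg Subtype.val hx
  refine AddMonoidHom.ext fun g => ?_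
  have h2 : (p : ℤ_[p]) * (x : Additive (Gamma0 M) →+ ℤ_[p]) g = 0 := DFunLike.congr_fun h1 g
  exact (mul_eq_zero.1 h2).resolve_left h0

theorem dnL_hecke (h : N ∣ M) (hm : M ∣ m) (i : TW.Pr m) (x : Lm p M) :
    dnL p h (heckeFam p hm i x) = heckeFam p (h.trans hm) i (dnL p h x) := by
  have : NeZero (i : ℕ) := ⟨i.2.1.ne_zero⟩
  rw [heckeFam, heckeFam, ← indM_hecke, ← indM_hecke, dnL, indM_comp, indM_comp]
  exact indM_congr p (fun z => dn_hecke i.2.1 (fun h' => i.2.2 (h'.trans hm)) h z) x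

theorem wL_hecke {c : ℕ} (h : ExDiv c M) (hm : M ∣ m) (i : TW.Pr m) (x : Lm p M) :
    wL p h (heckeFam p hm i x) = heckeFam p hm i (wL p h x) := by
  have : NeZero (i : ℕ) := ⟨i.2.1.ne_zero⟩
  rw [heckeFam, ← indM_hecke, ← indM_hecke, wL, indM_comp, indM_comp]
  exact indM_congr p (fun z => wP_hecke iotaQbar i.2.1 (fun h' => i.2.2 (h'.trans hm)) h z) x

theorem wL_wL {c : ℕ} (h : ExDiv c M) (x : Lm p M) : wL p h (wL p h x) = x := by
  rw [wL, indM_comp]
  exact (indM_congr p (v := AddMonoidHom.id _) (fun z => wP_wP iotaQbar h z) x).trans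
    (indM_id p x)

theorem pj_lamR (σ : GQ) (n : ℕ) (x : Lm p M) :
    (pj p M n (lamR p M σ x) : JZero M) = σ • (pj p M n x : JZero M) := pjP_lamR σ n x

theorem wL_lamR {c : ℕ} (h : ExDiv c M) (σ : GQ) (x : Lm p M) :
    wL p h (lamR p M σ x) = lamR p M σ (wL p h x) := by
  refine ext_pj p fun n => ?_
  rw [pj_wL, pj_lamR, pj_lamR, pj_wL, gal_wS_pic]

theorem dnL_lamR (h : N ∣ M) (σ : GQ) (x : Lm p M) :
    dnL p h (lamR p M σ x) = lamR p N σ (dnL p h x) := by
  refine ext_pj p fun n => ?_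
  rw [pj_dnL, pj_lamR, pj_lamR, pj_dnL, dn, push_gal _ (coe_incl h)]

theorem exists_lamDat (hM : M = N * p) (hNM : N ∣ M) (hpN : ¬ p ∣ N) (hm : M ∣ m)
    (hE : ExDiv p M) (A : ValuationSubring Qb) (hA : A.LiesOverPrime p) :
    ∃ D : LamDat p A (TW.Pr m) (fun i => (i : ℕ)) (Lm p M) (Lm p N),
      D.T = heckeFam p hm ∧ D.T' = heckeFam p (hNM.trans hm) ∧ D.aL = dnL p hNM ∧
      D.bL = dnL p hNM ∘ₗ wL p hE := by
  have : NeZero p := ⟨hp.out.ne_zero⟩
  subst hM
  let I := NewPoint.jI (N * p) p {q | q ∣ N * p} (fun q _ h => h)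
  have hpm : p ∣ m := (Dvd.intro_left N rfl).trans hm
  let V : Submodule ℤ_[p] (Lm p (N * p)) :=
    LinearMap.ker ((dnL p hNM).prod (dnL p hNM ∘ₗ wL p hE))
  have hV : ∀ {x : Lm p (N * p)}, x ∈ V ↔ dnL p hNM x = 0 ∧ dnL p hNM (wL p hE x) = 0 := by
    intro x
    rw [LinearMap.mem_ker]
    exact Prod.mk_eq_zero
  have hVr : ∀ (σ : GQ) (x : Lm p (N * p)), x ∈ V → lamR p (N * p) σ x ∈ V := by
    intro σ x hx
    obtain ⟨h1, h2⟩ := hV.1 hx
    rw [hV, wL_lamR, dnL_lamR, dnL_lamR, h1, h2, map_zero]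
    exact ⟨rfl, rfl⟩
  have hVw : ∀ (x : Lm p (N * p)), x ∈ V → wL p hE x ∈ V := by
    intro x hx
    obtain ⟨h1, h2⟩ := hV.1 hx
    rw [hV, wL_wL]
    exact ⟨h2, h1⟩
  let α : modularFunctionFieldBar N →ₐ[Qb] modularFunctionFieldBar (N * p) := incl Qb hNM
  let β : modularFunctionFieldBar N →ₐ[Qb] modularFunctionFieldBar (N * p) :=
    heckeBetaBar Qb N p
  have hα : ∀ x, (α x : LaurentSeries Qb) = x := coe_incl hNM
  have hβ : ∀ x, (β x : LaurentSeries Qb) = qExpand Qb p (x : LaurentSeries Qb) :=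
    fun x => coe_heckeBetaBar N p x
  have hww : ∀ x, ZAL.wF iotaQbar hE (ZAL.wF iotaQbar hE x) = x := ZAL.wF_wF iotaQbar hE
  have hαβ : ∀ x, ZAL.wF iotaQbar hE (α x) = β x :=
    fun y => wF_incl_beta iotaQbar hp.out hpN hNM hE y
  obtain ⟨K, k1, k2, k3, k4, k5, k6, k7⟩ := exists_K (M := N * p) (N := N) rfl hE A hA α β hα hβ
    (wL p hE : Lm p (N * p) →+ Lm p (N * p)) (fun n φ => pj_wL p hE n φ) V
    (fun x hx => by
      obtain ⟨h1, h2⟩ := hV.1 hx
      rw [map_smul] at h1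
      rw [map_smul, map_smul] at h2
      exact hV.2 ⟨lm_tf p h1, lm_tf p h2⟩) hVr hVw (fun x hx n => by
      obtain ⟨h1, h2⟩ := hV.1 hx
      constructor
      · have h3 := pj_dnL p hNM n x
        rw [h1, map_zero] at h3
        exact h3.symm
      · have h3 := pj_dnL p hNM n (wL p hE x)
        rw [h2, map_zero, pj_wL] at h3
        exact (pushPic_comp_equiv α β (ZAL.wF iotaQbar hE) hww hαβ _).symm.trans h3.symm)
  refine ⟨{ rho := lamR p (N * p)
            T := heckeFam p hm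
            T' := heckeFam p (hNM.trans hm)
            aL := dnL p hNM
            bL := dnL p hNM ∘ₗ wL p hE
            w := wL p hE
            rhoT := fun i σ => (I.parHecke_commute i.1 i.2.1 _ (fun h => i.2.2 (h.trans hm)) σ).eq
            wT := fun i => LinearMap.ext fun x => (wL_hecke p hE hm i x).symm
            wrho := fun σ => LinearMap.ext fun x => wL_lamR p hE σ x
            ww := LinearMap.ext fun x => wL_wL p hE x
            aT := fun i => LinearMap.ext fun x => dnL_hecke p hNM hm i x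
            bT := fun i => LinearMap.ext fun x => by
              show dnL p hNM (wL p hE (heckeFam p hm i x)) = _
              rw [wL_hecke, dnL_hecke]
              rfl
            krho := fun σ x h1 h2 => hV.1 (hVr σ x (hV.2 ⟨h1, h2⟩))
            kw := fun x h1 h2 => hV.1 (hVw x (hV.2 ⟨h1, h2⟩))
            cont := I.lam_continuous
            frob := fun i P hP τ hτ => I.lam_frobenius i.1 i.2.1 _ (fun h => i.2.2 (h.trans hm))
              (fun h => i.2.2 (h ▸ hpm)) P hP τ hτ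
            K := K
            Kle := fun x hx => hV.1 (k1 hx)
            sat := fun x hx => k2 x ?_ hx
            inert := fun s hs x h1 h2 => k3 s hs x (hV.2 ⟨h1, h2⟩)
            frobp := fun Φ hΦ x h1 h2 => k4 Φ hΦ x (hV.2 ⟨h1, h2⟩)
            cyc := fun ζ hζ l s hs hsζ x hx => by
              obtain ⟨y, -, hy⟩ := k5 ζ hζ l s hs hsζ x hx
              exact ⟨y, hy⟩
            Kdec := k6 }, rfl, rfl, rfl, rfl⟩
  obtain ⟨h1, h2⟩ := hV.1 (k1 hx)
  rw [map_smul] at h1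
  rw [map_smul, map_smul] at h2
  exact hV.2 ⟨lm_tf p h1, lm_tf p h2⟩

end Fermat.Agent.OrdNew
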