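import Fermat.Agent.OrdNew.Pts
import Fermat.Agent.FlatT.HeckeRep
import Fermat.Agent.Frob.Exists
import Fermat.Agent.QuadRep.Cyclo

/-!
# ORD-NEW: the line at `p` of a Galois representation attached to a `p`-new eigensystem
-/

set_option autoImplicit false
set_option linter.unusedSectionVars false

noncomputable section

namespace Fermat.Agent.OrdNew

open ModularCurve AlgebraicCurve CongruenceSubgroup ModularCurve.Period
open Fermat.Agent.ZDegI Fermat.Agent.HeckeHom Fermat.Agent.TorsCmp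
open Fermat.Agent.DefRing (GQ M2 MatCont)
open IsLocalRing Matrix
open scoped TensorProduct MatrixGroups

local notation "Qb" => AlgebraicClosure ℚ

theorem henselianLocalRing (O : Type) [CommRing O] [IsLocalRing O]
    [IsAdicComplete (maximalIdeal O) O] : HenselianLocalRing O where
  is_henselian := by
    intro f hf a₀ h1 h2
    have hH : HenselianRing O (maximalIdeal O) := IsAdicComplete.henselianRing O (maximalIdeal O)
    exact hH.is_henselian f hf a₀ h1 (h2.map _)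

section core

variable {p : ℕ} [hp : Fact p.Prime] (hp2 : p ≠ 2) {N m : ℕ} [NeZero N] [NeZero (N * p)]
  (hm0 : m ≠ 0) {A : ValuationSubring Qb} (hA : A.LiesOverPrime p)
  {E : Type} [Field E] (a : ℕ → E)
  {O : Type} [CommRing O] [IsDomain O] [IsLocalRing O] [IsNoetherianRing O]
  [IsAdicComplete (maximalIdeal O) O] [CharZero O] [Algebra ℤ_[p] O]
  (hpO : (p : O) ∈ maximalIdeal O) (ι : O →+* E) (hι : Function.Injective ι)
  (ρ : GQ →* M2 O) (hc : MatCont O ρ) (hspan : Submodule.span O (Set.range ρ) = ⊤)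
  (htr : ∀ s : ℕ, s.Prime → ¬ s ∣ m → ∀ B : ValuationSubring Qb, B.LiesOverPrime s →
    ∀ σ : GQ, B.IsFrobeniusAt σ s → ι (ρ σ).trace = a s)
  (hdet : ∀ s : ℕ, s.Prime → ¬ s ∣ m → ∀ B : ValuationSubring Qb, B.LiesOverPrime s →
    ∀ σ : GQ, B.IsFrobeniusAt σ s → (ρ σ).det = (s : O))

include hι htr in
theorem exists_traces : ∃ t : TW.Pr m → O, (∀ i : TW.Pr m, ι (t i) = a i) ∧
    ∀ i : TW.Pr m, ∀ B : ValuationSubring Qb, B.LiesOverPrime i →
      ∀ σ : GQ, B.IsFrobeniusAt σ i → (ρ σ).trace = t i := by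
  have hch : ∀ i : TW.Pr m, ∃ t : O, ∀ B : ValuationSubring Qb, B.LiesOverPrime i →
      ∀ σ : GQ, B.IsFrobeniusAt σ i → (ρ σ).trace = t := by
    intro i
    obtain ⟨B, hB, σ, hσ⟩ := Frob.exists_liesOverPrime_isFrobeniusAt (L := Qb) i.2.1
    refine ⟨(ρ σ).trace, fun B' hB' σ' hσ' => hι ?_⟩
    rw [htr i i.2.1 i.2.2 B hB σ hσ, htr i i.2.1 i.2.2 B' hB' σ' hσ']
  choose t ht using hch
  refine ⟨t, fun i => ?_, ht⟩
  obtain ⟨B, hB, σ, hσ⟩ := Frob.exists_liesOverPrime_isFrobeniusAt (L := Qb) i.2.1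
  rw [← ht i B hB σ hσ, htr i i.2.1 i.2.2 B hB σ hσ]

include hp2 hm0 hA hpO hc hspan hdet in
/-- the projector, from an eigenvector in the `p`-new part -/
theorem projector_core (t : TW.Pr m → O)
    (ht : ∀ i : TW.Pr m, ∀ B : ValuationSubring Qb, B.LiesOverPrime i →
      ∀ σ : GQ, B.IsFrobeniusAt σ i → (ρ σ).trace = t i)
    (D : LamDat p A (TW.Pr m) (fun i => (i : ℕ)) (Lm p (N * p)) (Lm p N))
    (hX : ∃ x ∈ D.X O t, x ≠ 0) : ∃ P : M2 O, P * P = P ∧ P.trace = 1 ∧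
    (∀ σ ∈ A.decompositionSubgroup ℚ, P * ρ σ * (1 - P) = 0) ∧
    (∀ s ∈ A.inertiaSubgroupIn ℚ, P * (ρ s - 1) = 0) ∧
    ∃ z : O, z ^ 2 = 1 ∧ ∀ Φ : GQ, A.IsFrobeniusAt Φ p → P * (ρ Φ - z • 1) = 0 := by
  have hp0 : (p : O) ≠ 0 := Nat.cast_ne_zero.mpr hp.out.ne_zero
  have hH : HenselianLocalRing O := henselianLocalRing O
  have hfree : Module.Free ℤ_[p] (Lm p (N * p)) :=
    Module.Free.of_basis (parBasis (N * p) ℤ_[p])
  have hfin : Module.Finite ℤ_[p] (Lm p (N * p)) :=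
    Module.Finite.of_basis (parBasis (N * p) ℤ_[p])
  exact D.exists_proj hpO hp0 hp2 hA ρ hc hspan m.primeFactors
    (fun ℓ hℓ hℓm => ⟨⟨ℓ, hℓ, fun h => hℓm (Nat.mem_primeFactors.2 ⟨hℓ, h, hm0⟩)⟩, rfl⟩)
    (fun i P hP τ hτ => ⟨ht i P hP τ hτ, hdet i i.2.1 i.2.2 P hP τ hτ⟩)
    (fun x hx => lm_tf p hx) hX

end core

section line

variable {p : ℕ} {A : ValuationSubring Qb} {E : Type} [Field E] {O : Type} [CommRing O]
  (ι : O →+* E) {ρ : GQ →* M2 O}

/-- from the projector to the line -/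
theorem line_of_projector (h : ∃ P : M2 O, P * P = P ∧ P.trace = 1 ∧
    (∀ σ ∈ A.decompositionSubgroup ℚ, P * ρ σ * (1 - P) = 0) ∧
    (∀ s ∈ A.inertiaSubgroupIn ℚ, P * (ρ s - 1) = 0) ∧
    ∃ z : O, z ^ 2 = 1 ∧ ∀ Φ : GQ, A.IsFrobeniusAt Φ p → P * (ρ Φ - z • 1) = 0) :
    ∃ w : Fin 2 → E, w ≠ 0 ∧
    (∀ σ ∈ A.decompositionSubgroup ℚ, ∃ c : E, (ρ σ).map ι *ᵥ w = c • w) ∧
    (∀ s ∈ A.inertiaSubgroupIn ℚ, ∀ v : Fin 2 → E, ∃ c : E, (ρ s).map ι *ᵥ v - v = c • w) ∧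
    ∃ z : E, z ^ 2 = 1 ∧ ∀ Φ : GQ, A.IsFrobeniusAt Φ p → ∀ v : Fin 2 → E,
      ∃ c : E, (ρ Φ).map ι *ᵥ v - z • v = c • w := by
  obtain ⟨P, hPP, htrP, h1, h2, z, hz, h3⟩ := h
  obtain ⟨w, hw0, hw1, hw2⟩ := exists_line ι hPP htrP
  refine ⟨w, hw0, fun σ hσ => hw2 _ ?_, fun s hs v => hw2 _ ?_, ι z, by rw [← map_pow, hz, map_one],
    fun Φ hΦ v => hw2 _ ?_⟩
  · have h4 := congrArg (fun Y : M2 O => Y.map ι *ᵥ w) (h1 σ hσ)
    have e1 : (P * ρ σ * (1 - P)).map ι = P.map ι * (ρ σ).map ι * (1 - P.map ι) := by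
      rw [Matrix.map_mul, Matrix.map_mul, Matrix.map_sub ι (by intros; exact map_sub ι _ _),
        Matrix.map_one ι (map_zero ι) (map_one ι)]
    have e2 : (0 : M2 O).map ι = 0 := Matrix.map_zero ι (map_zero ι)
    simp only [e1, e2, zero_mulVec, ← mulVec_mulVec, sub_mulVec, one_mulVec, hw1, sub_zero] at h4
    exact h4
  · have h4 := congrArg (fun Y : M2 O => Y.map ι *ᵥ v) (h2 s hs)
    have e1 : (P * (ρ s - 1)).map ι = P.map ι * ((ρ s).map ι - 1) := by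
      rw [Matrix.map_mul, Matrix.map_sub ι (by intros; exact map_sub ι _ _),
        Matrix.map_one ι (map_zero ι) (map_one ι)]
    have e2 : (0 : M2 O).map ι = 0 := Matrix.map_zero ι (map_zero ι)
    simp only [e1, e2, zero_mulVec, ← mulVec_mulVec, sub_mulVec, one_mulVec] at h4
    exact h4
  · have h4 := congrArg (fun Y : M2 O => Y.map ι *ᵥ v) (h3 Φ hΦ)
    have e0 : (z • (1 : M2 O)).map ι = ι z • (1 : M2 E) := by
      refine Matrix.ext fun i j => ?_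
      rw [Matrix.map_apply, Matrix.smul_apply, Matrix.smul_apply, smul_eq_mul, smul_eq_mul,
        map_mul, Matrix.one_apply, Matrix.one_apply]
      split_ifs <;> simp
    have e1 : (P * (ρ Φ - z • 1)).map ι = P.map ι * ((ρ Φ).map ι - ι z • 1) := by
      rw [Matrix.map_mul, Matrix.map_sub ι (by intros; exact map_sub ι _ _), e0]
    have e2 : (0 : M2 O).map ι = 0 := Matrix.map_zero ι (map_zero ι)
    simp only [e1, e2, zero_mulVec, ← mulVec_mulVec, sub_mulVec, one_mulVec, smul_mulVec] at h4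
    exact h4

end line

section

variable {p : ℕ} [hp : Fact p.Prime] (hp2 : p ≠ 2) {N m : ℕ} [NeZero N] (hpN : ¬ p ∣ N)
  (hm : N * p ∣ m) (hm0 : m ≠ 0) {A : ValuationSubring Qb} (hA : A.LiesOverPrime p)
  {E : Type} [Field E] [CharZero E] (a : ℕ → E)
  {O : Type} [CommRing O] [IsDomain O] [IsLocalRing O] [IsNoetherianRing O]
  [IsAdicComplete (maximalIdeal O) O] [CharZero O]
  (hpO : (p : O) ∈ maximalIdeal O) (ι : O →+* E) (hι : Function.Injective ι)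
  (ρ : GQ →* M2 O) (hc : MatCont O ρ) (hspan : Submodule.span O (Set.range ρ) = ⊤)
  (htr : ∀ s : ℕ, s.Prime → ¬ s ∣ m → ∀ B : ValuationSubring Qb, B.LiesOverPrime s →
    ∀ σ : GQ, B.IsFrobeniusAt σ s → ι (ρ σ).trace = a s)
  (hdet : ∀ s : ℕ, s.Prime → ¬ s ∣ m → ∀ B : ValuationSubring Qb, B.LiesOverPrime s →
    ∀ σ : GQ, B.IsFrobeniusAt σ s → (ρ σ).det = (s : O))
  (hnew : ∀ φ ∈ parabolicHoms E (Gamma0 N) E,
    (∀ (s : ℕ) (hs : s.Prime) (hsn : ¬ s ∣ N), ¬ s ∣ m → heckeHom hs hsn E φ = a s • φ) → φ = 0)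
  (hex : ∃ φ ∈ parabolicHoms E (Gamma0 (N * p)) E, φ ≠ 0 ∧
    ∀ (s : ℕ) (hs : s.Prime) (hsn : ¬ s ∣ N * p), ¬ s ∣ m → heckeHom hs hsn E φ = a s • φ)

include hp2 hpN hm hm0 hA hpO hι hc hspan htr hdet hnew hex

/-- **The projector at `p`.** -/
theorem exists_projector : ∃ P : M2 O, P * P = P ∧ P.trace = 1 ∧
    (∀ σ ∈ A.decompositionSubgroup ℚ, P * ρ σ * (1 - P) = 0) ∧
    (∀ s ∈ A.inertiaSubgroupIn ℚ, P * (ρ s - 1) = 0) ∧
    ∃ z : O, z ^ 2 = 1 ∧ ∀ Φ : GQ, A.IsFrobeniusAt Φ p → P * (ρ Φ - z • 1) = 0 := by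
  letI : Algebra ℤ_[p] O := (QuadRep.padicHom p O hpO).toAlgebra
  have hNp : NeZero (N * p) := ⟨mul_ne_zero (NeZero.ne N) hp.out.ne_zero⟩
  have hNM : N ∣ N * p := Dvd.intro p rfl
  have hE : ZAL.ExDiv p (N * p) := ⟨Dvd.intro_left N rfl, by
    rw [Nat.mul_div_cancel _ hp.out.pos]
    exact (Nat.Prime.coprime_iff_not_dvd hp.out).mpr hpN⟩
  obtain ⟨D, hDT, hDT', hDa, hDb⟩ := exists_lamDat p rfl hNM hpN hm hE A hA
  obtain ⟨t, hta, ht⟩ := exists_traces a ι hι ρ htr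
  -- no eigenvectors at level `N`
  have hnew' : ∀ y : O ⊗[ℤ_[p]] Lm p N, (∀ i, (D.T' i).baseChange O y = t i • y) → y = 0 := by
    intro y hy
    apply (kap_bijective O N).injective
    rw [map_zero]
    have h1 : ι.toAddMonoidHom.comp (kap O N y : Additive (Gamma0 N) →+ O) = 0 := by
      refine hnew _ (fun γ hγ => ?_) (fun s hs hsn hsm => ?_)
      · rw [AddMonoidHom.comp_apply, (kap O N y).2 γ hγ, map_zero]
      · rw [heckeHom_comp]
        have h2 := congrArg (kap O N) (hy ⟨s, hs, hsm⟩)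
        rw [hDT', map_smul] at h2
        have h3 := (kap_hecke O N hs hsn y).symm.trans h2
        have h4 := congrArg Subtype.val h3
        rw [coe_parHecke] at h4
        rw [h4]
        refine AddMonoidHom.ext fun γ => ?_
        show ι (t ⟨s, hs, hsm⟩ * (kap O N y : Additive (Gamma0 N) →+ O) γ) =
          a s * ι ((kap O N y : Additive (Gamma0 N) →+ O) γ)
        rw [map_mul, hta]
    refine Subtype.ext (AddMonoidHom.ext fun γ => hι ?_)
    rw [show ι ((kap O N y : Additive (Gamma0 N) →+ O) γ) = 0 from DFunLike.congr_fun h1 γ]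
    exact (map_zero ι).symm
  -- a nonzero eigenvector
  have hX : ∃ x ∈ D.X O t, x ≠ 0 := by
    obtain ⟨φ, hφ, hφ0, hφT⟩ := hex
    obtain ⟨ψ, hψ0, hψ⟩ := exists_eigen ι hι hm t φ hφ0 hφ (fun i => by
      rw [hφT i i.2.1 _ i.2.2, hta])
    obtain ⟨x, rfl⟩ := (kap_bijective (p := p) O (N * p)).surjective ψ
    have hx : ∀ i, (D.T i).baseChange O x = t i • x := by
      intro i
      apply (kap_bijective O (N * p)).injective
      rw [hDT, map_smul, ← hψ i]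
      exact kap_hecke O (N * p) i.2.1 _ x
    refine ⟨x, ⟨hx, ?_, ?_⟩, fun h => hψ0 (by rw [h, map_zero])⟩
    · apply hnew'
      intro i
      rw [← LinearMap.comp_apply, ← LinearMap.baseChange_comp, ← D.aT,
        LinearMap.baseChange_comp, LinearMap.comp_apply, hx, map_smul]
    · apply hnew'
      intro i
      rw [← LinearMap.comp_apply, ← LinearMap.baseChange_comp, ← D.bT,
        LinearMap.baseChange_comp, LinearMap.comp_apply, hx, map_smul]
  exact projector_core hp2 hm0 hA hpO ρ hc hspan hdet t ht D hX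

/-- **ORD-NEW.** -/
theorem exists_ord_line : ∃ w : Fin 2 → E, w ≠ 0 ∧
    (∀ σ ∈ A.decompositionSubgroup ℚ, ∃ c : E, (ρ σ).map ι *ᵥ w = c • w) ∧
    (∀ s ∈ A.inertiaSubgroupIn ℚ, ∀ v : Fin 2 → E, ∃ c : E, (ρ s).map ι *ᵥ v - v = c • w) ∧
    ∃ z : E, z ^ 2 = 1 ∧ ∀ Φ : GQ, A.IsFrobeniusAt Φ p → ∀ v : Fin 2 → E,
      ∃ c : E, (ρ Φ).map ι *ᵥ v - z • v = c • w :=
  line_of_projector ι
    (exists_projector hp2 hpN hm hm0 hA a hpO ι hι ρ hc hspan htr hdet hnew hex)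

end

/-- spanning can be checked residually -/
theorem span_top {O : Type} [CommRing O] [IsLocalRing O] (ρ : GQ →* M2 O)
    (h : Submodule.span (ResidueField O) (Set.range fun g => (ρ g).map (residue O)) = ⊤) :
    Submodule.span O (Set.range ρ) = ⊤ := by
  let r : GQ →* M2 (ResidueField O) := ((residue O).mapMatrix (m := Fin 2)).toMonoidHom.comp ρ
  refine FlatT.span_top_of_red (𝒪 := O) (rbar := r) h ?_
  intro σ i j o ho
  rw [Algebra.algebraMap_self, RingHom.id_apply, ← residue_eq_zero_iff, map_sub, sub_eq_zero, ho]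
  rfl

end Fermat.Agent.OrdNew
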