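import Fermat.Agent.OrdNew.BC
import Fermat.Agent.ORD.Ram
import Fermat.Agent.QuadRep.RootsOfUnity

/-!
# The ordinary line of a `p`-new eigensystem, from lattice data
-/

set_option autoImplicit false
set_option linter.unusedSectionVars false

noncomputable section

namespace Fermat.Agent.OrdNew

open IsLocalRing Matrix
open Fermat.Agent.DefRing (GQ M2 MatCont)
open scoped TensorProduct Pointwise

local notation "Qb" => AlgebraicClosure ℚ

/-- Lattice data at `p`. -/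
structure LamDat (p : ℕ) [Fact p.Prime] (A : ValuationSubring Qb) (ι : Type) (num : ι → ℕ)
    (Λ Λ' : Type) [AddCommGroup Λ] [Module ℤ_[p] Λ] [AddCommGroup Λ'] [Module ℤ_[p] Λ'] where
  rho : GQ →* Module.End ℤ_[p] Λ
  T : ι → Module.End ℤ_[p] Λ
  T' : ι → Module.End ℤ_[p] Λ'
  aL : Λ →ₗ[ℤ_[p]] Λ'
  bL : Λ →ₗ[ℤ_[p]] Λ'
  w : Module.End ℤ_[p] Λ
  rhoT : ∀ i σ, T i * rho σ = rho σ * T i
  wT : ∀ i, T i * w = w * T i
  wrho : ∀ σ, w * rho σ = rho σ * w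
  ww : w * w = 1
  aT : ∀ i, aL ∘ₗ T i = T' i ∘ₗ aL
  bT : ∀ i, bL ∘ₗ T i = T' i ∘ₗ bL
  krho : ∀ σ x, aL x = 0 → bL x = 0 → aL (rho σ x) = 0 ∧ bL (rho σ x) = 0
  kw : ∀ x, aL x = 0 → bL x = 0 → aL (w x) = 0 ∧ bL (w x) = 0
  cont : ∀ n : ℕ, ∃ L : IntermediateField ℚ (AlgebraicClosure ℚ), FiniteDimensional ℚ L ∧
    ∀ σ : GQ, (∀ z ∈ L, σ z = z) → ∀ x : Λ, ∃ y, rho σ x - x = ((p : ℤ_[p]) ^ n) • y
  frob : ∀ i, ∀ P : ValuationSubring (AlgebraicClosure ℚ), P.LiesOverPrime (num i) →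
    ∀ τ : GQ, P.IsFrobeniusAt τ (num i) →
      rho τ * rho τ - T i * rho τ + ((num i : ℕ) : ℤ_[p]) • (1 : Module.End ℤ_[p] Λ) = 0
  K : Submodule ℤ_[p] Λ
  Kle : ∀ x ∈ K, aL x = 0 ∧ bL x = 0
  sat : ∀ x, (p : ℤ_[p]) • x ∈ K → x ∈ K
  inert : ∀ s ∈ A.inertiaSubgroupIn ℚ, ∀ x, aL x = 0 → bL x = 0 → rho s x - x ∈ K
  frobp : ∀ Φ : GQ, A.IsFrobeniusAt Φ p → ∀ x, aL x = 0 → bL x = 0 → rho Φ x + w x ∈ K
  cyc : ∀ ζ : Qb, IsPrimitiveRoot ζ p → ∀ l : ℕ, ∀ s ∈ A.inertiaSubgroupIn ℚ, s ζ = ζ ^ l →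
    ∀ x ∈ K, ∃ y, rho s x - (l : ℤ_[p]) • x = (p : ℤ_[p]) • y
  Kdec : ∀ τ ∈ A.decompositionSubgroup ℚ, ∀ x ∈ K, rho τ x ∈ K

variable {p : ℕ} [hp : Fact p.Prime] {A : ValuationSubring Qb} {ι : Type} {num : ι → ℕ}
  {Λ Λ' : Type} [AddCommGroup Λ] [Module ℤ_[p] Λ] [AddCommGroup Λ'] [Module ℤ_[p] Λ']
  (D : LamDat p A ι num Λ Λ')

section X

variable (O : Type) [CommRing O] [Algebra ℤ_[p] O] (a : ι → O)

/-- the eigenspace in the `p`-new part -/
def LamDat.X : Submodule O (O ⊗[ℤ_[p]] Λ) where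
  carrier := {x | (∀ i, (D.T i).baseChange O x = a i • x) ∧ D.aL.baseChange O x = 0 ∧
    D.bL.baseChange O x = 0}
  add_mem' := by
    rintro x y ⟨h1, h2, h3⟩ ⟨h4, h5, h6⟩
    exact ⟨fun i => by rw [map_add, h1, h4, smul_add], by rw [map_add, h2, h5, add_zero],
      by rw [map_add, h3, h6, add_zero]⟩
  zero_mem' := ⟨fun i => by rw [map_zero, smul_zero], map_zero _, map_zero _⟩
  smul_mem' := by
    rintro c x ⟨h1, h2, h3⟩
    exact ⟨fun i => by rw [map_smul, h1, smul_comm], by rw [map_smul, h2, smul_zero],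
      by rw [map_smul, h3, smul_zero]⟩

variable {O a}

theorem LamDat.mem_X {x : O ⊗[ℤ_[p]] Λ} : x ∈ D.X O a ↔
    (∀ i, (D.T i).baseChange O x = a i • x) ∧ D.aL.baseChange O x = 0 ∧
      D.bL.baseChange O x = 0 := Iff.rfl

/-- the new part -/
abbrev LamDat.new : Submodule ℤ_[p] Λ := LinearMap.ker (D.aL.prod D.bL)

theorem LamDat.mem_new {x : Λ} : x ∈ D.new ↔ D.aL x = 0 ∧ D.bL x = 0 := by
  rw [LinearMap.mem_ker]
  exact Prod.mk_eq_zero

theorem LamDat.mem_bc_new [Module.Flat ℤ_[p] O] {x : O ⊗[ℤ_[p]] Λ}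
    (h1 : D.aL.baseChange O x = 0) (h2 : D.bL.baseChange O x = 0) : x ∈ D.new.baseChange O := by
  have h3 : x ∈ (LinearMap.ker D.aL).baseChange O := (mem_bc_ker _).2 h1
  have h4 : D.aL.baseChange O x = 0 ∧ D.bL.baseChange O x = 0 := ⟨h1, h2⟩
  rw [mem_bc_ker]
  -- project to the two components
  have e1 : ∀ y : O ⊗[ℤ_[p]] Λ, (LinearMap.fst ℤ_[p] Λ' Λ').baseChange O
      ((D.aL.prod D.bL).baseChange O y) = D.aL.baseChange O y := by
    intro y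
    rw [← LinearMap.comp_apply, ← LinearMap.baseChange_comp]
    rfl
  have e2 : ∀ y : O ⊗[ℤ_[p]] Λ, (LinearMap.snd ℤ_[p] Λ' Λ').baseChange O
      ((D.aL.prod D.bL).baseChange O y) = D.bL.baseChange O y := by
    intro y
    rw [← LinearMap.comp_apply, ← LinearMap.baseChange_comp]
    rfl
  have key : ∀ z : O ⊗[ℤ_[p]] (Λ' × Λ'), (LinearMap.fst ℤ_[p] Λ' Λ').baseChange O z = 0 →
      (LinearMap.snd ℤ_[p] Λ' Λ').baseChange O z = 0 → z = 0 := by
    intro z hz1 hz2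
    have e3 : z = (LinearMap.inl ℤ_[p] Λ' Λ').baseChange O
        ((LinearMap.fst ℤ_[p] Λ' Λ').baseChange O z) +
        (LinearMap.inr ℤ_[p] Λ' Λ').baseChange O ((LinearMap.snd ℤ_[p] Λ' Λ').baseChange O z) := by
      rw [← LinearMap.comp_apply, ← LinearMap.baseChange_comp, ← LinearMap.comp_apply,
        ← LinearMap.baseChange_comp, ← LinearMap.add_apply, ← LinearMap.baseChange_add]
      have e4 : LinearMap.inl ℤ_[p] Λ' Λ' ∘ₗ LinearMap.fst ℤ_[p] Λ' Λ' +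
          LinearMap.inr ℤ_[p] Λ' Λ' ∘ₗ LinearMap.snd ℤ_[p] Λ' Λ' = LinearMap.id := by
        refine LinearMap.ext fun x => ?_
        simp
      rw [e4, LinearMap.baseChange_id]
      rfl
    rw [e3, hz1, hz2, map_zero, map_zero, add_zero]
  exact key _ (by rw [e1, h1]) (by rw [e2, h2])

theorem LamDat.rho_mem_X [Module.Flat ℤ_[p] O] (σ : GQ) {x : O ⊗[ℤ_[p]] Λ} (hx : x ∈ D.X O a) :
    (D.rho σ).baseChange O x ∈ D.X O a := by
  have h1 := D.mem_bc_new hx.2.1 hx.2.2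
  have h2 := bc_mem (O := O) (D.rho σ) (U := D.new) (V := D.new) (fun y hy =>
    D.mem_new.2 (D.krho σ y (D.mem_new.1 hy).1 (D.mem_new.1 hy).2)) h1
  refine ⟨fun i => ?_, ?_, ?_⟩
  · rw [← Module.End.mul_apply, ← LinearMap.baseChange_mul, D.rhoT, LinearMap.baseChange_mul,
      Module.End.mul_apply, hx.1, map_smul]
  · refine bc_ind (P := fun z => D.aL.baseChange O z = 0) ?_ ?_ ?_ h2
    · exact map_zero _
    · intro x y hx hy; rw [map_add, hx, hy, add_zero]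
    · intro o u hu
      rw [LinearMap.baseChange_tmul, (D.mem_new.1 hu).1, TensorProduct.tmul_zero]
  · refine bc_ind (P := fun z => D.bL.baseChange O z = 0) ?_ ?_ ?_ h2
    · exact map_zero _
    · intro x y hx hy; rw [map_add, hx, hy, add_zero]
    · intro o u hu
      rw [LinearMap.baseChange_tmul, (D.mem_new.1 hu).2, TensorProduct.tmul_zero]

theorem LamDat.w_mem_X [Module.Flat ℤ_[p] O] {x : O ⊗[ℤ_[p]] Λ} (hx : x ∈ D.X O a) :
    D.w.baseChange O x ∈ D.X O a := by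
  have h1 := D.mem_bc_new hx.2.1 hx.2.2
  have h2 := bc_mem (O := O) D.w (U := D.new) (V := D.new) (fun y hy =>
    D.mem_new.2 (D.kw y (D.mem_new.1 hy).1 (D.mem_new.1 hy).2)) h1
  refine ⟨fun i => ?_, ?_, ?_⟩
  · rw [← Module.End.mul_apply, ← LinearMap.baseChange_mul, D.wT, LinearMap.baseChange_mul,
      Module.End.mul_apply, hx.1, map_smul]
  · refine bc_ind (P := fun z => D.aL.baseChange O z = 0) ?_ ?_ ?_ h2
    · exact map_zero _
    · intro x y hx hy; rw [map_add, hx, hy, add_zero]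
    · intro o u hu
      rw [LinearMap.baseChange_tmul, (D.mem_new.1 hu).1, TensorProduct.tmul_zero]
  · refine bc_ind (P := fun z => D.bL.baseChange O z = 0) ?_ ?_ ?_ h2
    · exact map_zero _
    · intro x y hx hy; rw [map_add, hx, hy, add_zero]
    · intro o u hu
      rw [LinearMap.baseChange_tmul, (D.mem_new.1 hu).2, TensorProduct.tmul_zero]

variable (O a)

/-- the eigenspace, as a type -/
def LamDat.XT : Type := ↥(D.X O a)

instance : AddCommGroup (D.XT O a) := inferInstanceAs (AddCommGroup ↥(D.X O a))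

instance : Module O (D.XT O a) := inferInstanceAs (Module O ↥(D.X O a))

/-- the inclusion -/
def LamDat.val : D.XT O a →ₗ[O] O ⊗[ℤ_[p]] Λ := (D.X O a).subtype

variable {O a}

theorem LamDat.val_mem (x : D.XT O a) : D.val O a x ∈ D.X O a := Subtype.prop x

theorem LamDat.val_inj {x y : D.XT O a} (h : D.val O a x = D.val O a y) : x = y :=
  Subtype.ext h

/-- elements -/
def LamDat.inc {x : O ⊗[ℤ_[p]] Λ} (hx : x ∈ D.X O a) : D.XT O a := ⟨x, hx⟩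

theorem LamDat.val_inc {x : O ⊗[ℤ_[p]] Λ} (hx : x ∈ D.X O a) : D.val O a (D.inc hx) = x := rfl

variable (O a)

/-- the Galois action on the eigenspace -/
def LamDat.rX [Module.Flat ℤ_[p] O] : GQ →* Module.End O (D.XT O a) where
  toFun σ :=
    { toFun := fun x => D.inc (D.rho_mem_X σ (D.val_mem x))
      map_add' := fun x y => D.val_inj (by
        rw [D.val_inc, map_add, map_add, map_add, D.val_inc, D.val_inc])
      map_smul' := fun c x => D.val_inj (by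
        rw [D.val_inc, map_smul, map_smul, map_smul, D.val_inc]; rfl) }
  map_one' := by
    refine LinearMap.ext fun x => D.val_inj ?_
    change (D.rho 1).baseChange O (D.val O a x) = D.val O a x
    rw [map_one, LinearMap.baseChange_one]
    rfl
  map_mul' σ τ := by
    refine LinearMap.ext fun x => D.val_inj ?_
    change (D.rho (σ * τ)).baseChange O (D.val O a x) =
      (D.rho σ).baseChange O ((D.rho τ).baseChange O (D.val O a x))
    rw [map_mul, LinearMap.baseChange_mul]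
    rfl

/-- the involution on the eigenspace -/
def LamDat.wX [Module.Flat ℤ_[p] O] : Module.End O (D.XT O a) where
  toFun x := D.inc (D.w_mem_X (D.val_mem x))
  map_add' x y := D.val_inj (by
    rw [D.val_inc, map_add, map_add, map_add, D.val_inc, D.val_inc])
  map_smul' c x := D.val_inj (by
    rw [D.val_inc, map_smul, map_smul, map_smul, D.val_inc]; rfl)

variable {O a}

theorem LamDat.coe_rX [Module.Flat ℤ_[p] O] (σ : GQ) (x : D.XT O a) :
    D.val O a (D.rX O a σ x) = (D.rho σ).baseChange O (D.val O a x) := rfl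

theorem LamDat.coe_wX [Module.Flat ℤ_[p] O] (x : D.XT O a) :
    D.val O a (D.wX O a x) = D.w.baseChange O (D.val O a x) := rfl

end X

section det

variable {O : Type} [CommRing O] [IsLocalRing O] {r : GQ →* M2 O}

/-- the determinant modulo the maximal ideal -/
theorem det_mod (hc : MatCont O r) (S : Finset ℕ) (hpm : (p : O) ∈ maximalIdeal O)
    (hdet : ∀ ℓ : ℕ, ℓ.Prime → ℓ ∉ S → ∀ P : ValuationSubring (AlgebraicClosure ℚ),
      P.LiesOverPrime ℓ → ∀ τ : GQ, P.IsFrobeniusAt τ ℓ → (r τ).det = (ℓ : O))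
    {ζ : Qb} (hζ : IsPrimitiveRoot ζ p) (g : GQ) (l : ℕ) (hg : g ζ = ζ ^ l) :
    (r g).det - (l : O) ∈ maximalIdeal O := by
  obtain ⟨L₁, hL₁, h₁⟩ := hc 1
  let L₂ := IntermediateField.adjoin ℚ {ζ}
  have hL₂ : FiniteDimensional ℚ L₂ :=
    IntermediateField.adjoin.finiteDimensional (Algebra.IsIntegral.isIntegral ζ)
  have hζL : ζ ∈ L₂ := IntermediateField.mem_adjoin_simple_self ℚ ζ
  obtain ⟨ℓ, hℓ, hℓS, P, hP, -, τ, hτ, ⟨j, hj⟩, -⟩ :=
    FrobDensity.exists_frobenius_pow_eq (L₁ ⊔ L₂)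
      (IntermediateField.finiteDimensional_sup L₁ L₂) g (insert p S)
  have hℓp : ℓ ≠ p := fun h => hℓS (by rw [h]; exact Finset.mem_insert_self p S)
  have hℓS' : ℓ ∉ S := fun h => hℓS (Finset.mem_insert_of_mem h)
  -- action on `ζ`
  have hτζ : ∀ j : ℕ, (τ ^ j) ζ = ζ ^ (ℓ ^ j) := by
    intro j
    induction j with
    | zero => rw [pow_zero, pow_zero, pow_one]; rfl
    | succ j ih =>
      rw [pow_succ, AlgEquiv.mul_apply, QuadRep.frobenius_smul_root hℓ hP hτ (N := p)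
        hp.out.pos ((Nat.coprime_primes hp.out hℓ).mpr hℓp.symm) ζ hζ.pow_eq_one, map_pow, ih,
        ← pow_mul, ← pow_succ]
  have h2 : ζ ^ (ℓ ^ j) = ζ ^ l := by
    rw [← hτζ, hj ζ ((le_sup_right : L₂ ≤ L₁ ⊔ L₂) hζL), hg]
  have h3 : (ℓ ^ j : ℕ) ≡ l [MOD p] := by
    have h4 : ∀ c : ℕ, ζ ^ (c % p) = ζ ^ c := fun c => by
      conv_lhs => rw [hζ.eq_orderOf, pow_mod_orderOf]
    refine hζ.pow_inj (Nat.mod_lt _ hp.out.pos) (Nat.mod_lt _ hp.out.pos) ?_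
    rw [h4, h4, h2]
  have h4 : ((ℓ ^ j : ℕ) : O) - (l : O) ∈ maximalIdeal O := by
    have h5 : (p : ℤ) ∣ ((ℓ ^ j : ℕ) : ℤ) - (l : ℤ) := (Nat.modEq_iff_dvd.1 h3.symm)
    obtain ⟨c, hc⟩ := h5
    have h6 := congrArg (Int.cast : ℤ → O) hc
    push_cast at h6
    push_cast
    rw [h6]
    exact Ideal.mul_mem_right _ _ hpm
  -- comparison
  have hfix : ∀ x ∈ L₁ ⊔ L₂, ((τ ^ j)⁻¹ * g) x = x := by
    intro x hx
    rw [AlgEquiv.mul_apply, ← hj x hx]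
    exact (τ ^ j).symm_apply_apply x
  have hu := h₁ ((τ ^ j)⁻¹ * g) fun x hx => hfix x ((le_sup_left : L₁ ≤ L₁ ⊔ L₂) hx)
  rw [pow_one] at hu
  have hgd : (r g).det = (r (τ ^ j)).det * (r ((τ ^ j)⁻¹ * g)).det := by
    rw [← det_mul, ← map_mul]
    congr 2
    group
  have hud : (r ((τ ^ j)⁻¹ * g)).det - 1 ∈ maximalIdeal O := by
    set u := r ((τ ^ j)⁻¹ * g)
    rw [det_fin_two]
    have e : u 0 0 * u 1 1 - u 0 1 * u 1 0 - 1 = (u - 1) 0 0 * u 1 1 + (u - 1) 1 1 -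
        (u - 1) 0 1 * u 1 0 := by
      simp [Matrix.sub_apply, Matrix.one_apply]; ring
    rw [e]
    exact Ideal.sub_mem _ (Ideal.add_mem _ (Ideal.mul_mem_right _ _ (hu 0 0)) (hu 1 1))
      (Ideal.mul_mem_right _ _ (hu 0 1))
  have h5 : (r (τ ^ j)).det = ((ℓ ^ j : ℕ) : O) := by
    rw [map_pow, det_pow, hdet ℓ hℓ hℓS' P hP τ hτ]
    push_cast
    rfl
  rw [hgd, h5]
  have e : ((ℓ ^ j : ℕ) : O) * (r ((τ ^ j)⁻¹ * g)).det - (l : O) =
      ((ℓ ^ j : ℕ) : O) * ((r ((τ ^ j)⁻¹ * g)).det - 1) + (((ℓ ^ j : ℕ) : O) - (l : O)) := by ring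
  rw [e]
  exact Ideal.add_mem _ (Ideal.mul_mem_left _ _ hud) h4

end det

section absX

variable {O : Type} [CommRing O] [IsDomain O] [HenselianLocalRing O]
  (hpm : (p : O) ∈ maximalIdeal O) (hp2 : p ≠ 2) (hA : A.LiesOverPrime p)
  (r : GQ →* M2 O) (hc : MatCont O r)
  (hspan : Submodule.span O (Set.range r) = ⊤) (S : Finset ℕ)
  (hdet : ∀ ℓ : ℕ, ℓ.Prime → ℓ ∉ S → ∀ P : ValuationSubring (AlgebraicClosure ℚ),
    P.LiesOverPrime ℓ → ∀ τ : GQ, P.IsFrobeniusAt τ ℓ → (r τ).det = (ℓ : O))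
  {X : Type} [AddCommGroup X] [Module O X]
  (hsep : ∀ x : X, (∀ n : ℕ, x ∈ (maximalIdeal O ^ n) • (⊤ : Submodule O X)) → x = 0)
  (htf : ∀ (o : O), o ≠ 0 → ∀ x : X, o • x = 0 → x = 0) (hne : ∃ x : X, x ≠ 0)
  (hp0 : (p : O) ≠ 0)
  (ρ : GQ →* Module.End O X) (hcX : ActCont O ρ)
  (hfrob : ∀ ℓ : ℕ, ℓ.Prime → ℓ ∉ S → ∀ P : ValuationSubring (AlgebraicClosure ℚ),
    P.LiesOverPrime ℓ → ∀ τ : GQ, P.IsFrobeniusAt τ ℓ →
      ρ τ * ρ τ - (r τ).trace • ρ τ + (r τ).det • (1 : Module.End O X) = 0)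
  (K : Submodule O X) (hsat : ∀ x, (p : O) • x ∈ K → x ∈ K)
  (hdec : ∀ σ ∈ A.decompositionSubgroup ℚ, ∀ x ∈ K, ρ σ x ∈ K)
  (hin : ∀ s ∈ A.inertiaSubgroupIn ℚ, ∀ x, ρ s x - x ∈ K)
  (w : Module.End O X) (hww : ∀ x, w (w x) = x) (hwr : ∀ σ x, w (ρ σ x) = ρ σ (w x))
  (hfr : ∀ Φ : GQ, A.IsFrobeniusAt Φ p → ∀ x, ρ Φ x + w x ∈ K)
  (hcyc : ∀ ζ : Qb, IsPrimitiveRoot ζ p → ∀ s ∈ A.inertiaSubgroupIn ℚ, s ζ = ζ ^ 2 →
    ∀ x ∈ K, ∃ y, ρ s x - ((2 : ℕ) : O) • x = (p : O) • y)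

include hpm hp2 hA hc hspan hdet hsep htf hne hp0 hcX hfrob hsat hdec hin hww hwr hfr hcyc in
/-- **The projector, abstract form.** -/
theorem exists_proj_abs : ∃ P : M2 O, P * P = P ∧ P.trace = 1 ∧
    (∀ σ ∈ A.decompositionSubgroup ℚ, P * r σ * (1 - P) = 0) ∧
    (∀ s ∈ A.inertiaSubgroupIn ℚ, P * (r s - 1) = 0) ∧
    ∃ z : O, z ^ 2 = 1 ∧ ∀ Φ : GQ, A.IsFrobeniusAt Φ p → P * (r Φ - z • 1) = 0 := by
  obtain ⟨x₀, hx₀⟩ := hne
  have hfaith : ∀ t : O, (∀ x : X, t • x = 0) → t = 0 := by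
    intro t ht
    by_contra ht0
    exact hx₀ (htf t ht0 x₀ (ht _))
  have h20 : (2 : O) ≠ 0 := by
    intro h
    obtain ⟨k, hk⟩ := hp.out.odd_of_ne_two hp2
    have h3 : (p : O) = 1 := by
      rw [hk]; push_cast; rw [h]; ring
    exact (maximalIdeal.isMaximal O).ne_top ((Ideal.eq_top_iff_one _).2 (h3 ▸ hpm))
  obtain ⟨Ψ, hΨ⟩ := exists_psi hsep (fun x hx => by
    rw [← two_smul O x] at hx
    exact htf 2 h20 x hx) ρ hcX r hc hspan S hfrob
  have hdec' : ∀ σ ∈ A.decompositionSubgroup ℚ, ∀ x ∈ K, Ψ (r σ) x ∈ K := by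
    intro σ hσ x hx
    rw [hΨ]; exact hdec σ hσ x hx
  have hin' : ∀ s ∈ A.inertiaSubgroupIn ℚ, ∀ x, Ψ (r s) x - x ∈ K := by
    intro s hs x
    rw [hΨ]; exact hin s hs x
  have hfr' : ∀ Φ : GQ, A.IsFrobeniusAt Φ p → ∀ x, Ψ (r Φ) x + w x ∈ K := by
    intro Φ hΦ x
    rw [hΨ]; exact hfr Φ hΦ x
  have hID : ∀ s ∈ A.inertiaSubgroupIn ℚ, s ∈ A.decompositionSubgroup ℚ := by
    rintro _ ⟨s, -, rfl⟩
    exact s.2
  -- the element of inertia
  obtain ⟨ζ, hζ⟩ := HasEnoughRootsOfUnity.exists_primitiveRoot (AlgebraicClosure ℚ) p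
  have hcop : Nat.Coprime 2 p := (Nat.coprime_primes Nat.prime_two hp.out).mpr hp2.symm
  obtain ⟨s₀, hs₀, hs₀ζ⟩ := ORD.exists_inertia_root hA 1 (ζ := ζ) (ξ := ζ ^ 2)
    (by rwa [pow_one]) (by rw [pow_one]; exact hζ.pow_of_coprime 2 hcop)
  have hdat : Dat p r Ψ K s₀ 2 :=
    { faith := hfaith
      tf := htf _ hp0
      sep := hsep
      sat := hsat
      pmem := hpm
      det := det_mod hc S hpm hdet hζ s₀ 2 hs₀ζ
      unit := by
        have : ((2 : ℕ) : O) - 1 = 1 := by norm_num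
        rw [this]; exact isUnit_one
      quo := hin' s₀ hs₀
      cyc := fun x hx => by
        obtain ⟨y, hy⟩ := hcyc ζ hζ s₀ hs₀ hs₀ζ x hx
        exact ⟨y, by rw [hΨ]; exact hy⟩
      stab := hdec' s₀ (hID s₀ hs₀) }
  obtain ⟨P, hPP, htr, hPs, hPK⟩ := hdat.exists_proj
  refine ⟨P, hPP, htr, fun σ hσ => proj_stab hfaith hPP hPK (hdec' σ hσ),
    fun s hs => proj_quot hfaith hPK (hin' s hs), ?_⟩
  have hwr' : ∀ x, w (Ψ (r s₀) x) = Ψ (r s₀) (w x) := by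
    intro x
    rw [hΨ]; exact hwr s₀ x
  have key := fun (Φ : GQ) (hΦ : A.IsFrobeniusAt Φ p) =>
    proj_frob (r := r) (φ := Φ) hfaith hPP hPK htr hPs w hww hwr'
      (hdec' Φ hΦ.mem_decompositionSubgroup) (hfr' Φ hΦ)
  by_cases hex : ∃ Φ : GQ, A.IsFrobeniusAt Φ p
  · obtain ⟨Φ₀, hΦ₀⟩ := hex
    obtain ⟨z, hz, -, hzw⟩ := key Φ₀ hΦ₀
    refine ⟨z, hz, fun Φ hΦ => ?_⟩
    obtain ⟨z', hz', h1, hzw'⟩ := key Φ hΦ
    have h2 : Ψ ((z' - z) • P) = 0 := by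
      refine LinearMap.ext fun x => ?_
      have h3 := hzw x
      have h4 := hzw' x
      rw [map_add, map_smul] at h3 h4
      rw [map_smul, LinearMap.smul_apply, LinearMap.zero_apply, sub_smul, sub_eq_zero]
      exact add_left_cancel (h4.trans h3.symm)
    have h3 := congrArg Matrix.trace (psi_injective Ψ hfaith h2)
    rw [trace_smul, htr, trace_zero, smul_eq_mul, mul_one, sub_eq_zero] at h3
    rw [← h3]
    exact h1
  · exact ⟨1, one_pow 2, fun Φ hΦ => absurd ⟨Φ, hΦ⟩ hex⟩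

end absX

section tens

variable [Module.Free ℤ_[p] Λ] [Module.Finite ℤ_[p] Λ]

theorem padic_tf (x : Λ) (hx : (p : ℤ_[p]) • x = 0) : x = 0 := by
  have h1 : (p : ℤ_[p]) ≠ 0 := Nat.cast_ne_zero.mpr hp.out.ne_zero
  have h2 : Module.IsTorsionFree ℤ_[p] Λ := inferInstance
  exact h2.isSMulRegular (IsRegular.of_ne_zero h1) (hx.trans (smul_zero _).symm)

theorem tens_tf {O : Type} [CommRing O] [IsDomain O] [Algebra ℤ_[p] O] (hp0 : (p : O) ≠ 0)
    {x : O ⊗[ℤ_[p]] Λ} {o : O} (ho : o ≠ 0) (hx : o • x = 0) : x = 0 :=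
  bc_torsionFree O (fun y hy => padic_tf y hy) hp0 ho hx

/-- separatedness -/
theorem tens_sep {O : Type} [CommRing O] [IsLocalRing O] [IsNoetherianRing O] [Algebra ℤ_[p] O]
    (x : O ⊗[ℤ_[p]] Λ)
    (hx : ∀ n : ℕ, x ∈ (maximalIdeal O ^ n) • (⊤ : Submodule O (O ⊗[ℤ_[p]] Λ))) : x = 0 := by
  let b := (Module.finBasis ℤ_[p] Λ).baseChange O
  apply b.repr.injective
  rw [map_zero]
  refine Finsupp.ext fun i => ?_
  have h1 : ∀ n : ℕ, b.repr x i ∈ maximalIdeal O ^ n := fun n =>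
    DefRing.repr_mem_of_mem_smul_top b _ (hx n) i
  have h2 : b.repr x i ∈ (⨅ n : ℕ, maximalIdeal O ^ n) := by
    rw [Ideal.mem_iInf]; exact h1
  rw [Ideal.iInf_pow_eq_bot_of_isLocalRing _ (maximalIdeal.isMaximal O).ne_top] at h2
  exact h2

end tens

theorem LamDat.X_sat {O : Type} [CommRing O] [IsDomain O] [Algebra ℤ_[p] O] {a : ι → O}
    (hp0 : (p : O) ≠ 0) (hΛ : ∀ x : Λ, (p : ℤ_[p]) • x = 0 → x = 0)
    (hΛ' : ∀ x : Λ', (p : ℤ_[p]) • x = 0 → x = 0) {x : O ⊗[ℤ_[p]] Λ} {o : O} (ho : o ≠ 0)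
    (hx : o • x ∈ D.X O a) : x ∈ D.X O a := by
  obtain ⟨h1, h2, h3⟩ := hx
  refine ⟨fun i => ?_, ?_, ?_⟩
  · have h4 := h1 i
    rw [map_smul, smul_comm] at h4
    have h5 : o • ((D.T i).baseChange O x - a i • x) = 0 := by
      rw [smul_sub]; exact sub_eq_zero.2 h4
    exact sub_eq_zero.1 (bc_torsionFree O hΛ hp0 ho h5)
  · rw [map_smul] at h2
    exact bc_torsionFree O hΛ' hp0 ho h2
  · rw [map_smul] at h3
    exact bc_torsionFree O hΛ' hp0 ho h3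

section main

variable [Module.Free ℤ_[p] Λ] [Module.Finite ℤ_[p] Λ] {O : Type} [CommRing O] [IsDomain O]
  [IsNoetherianRing O] [HenselianLocalRing O] [Algebra ℤ_[p] O]
  (hpm : (p : O) ∈ maximalIdeal O) (hp0 : (p : O) ≠ 0) (hp2 : p ≠ 2) (hA : A.LiesOverPrime p)
  {a : ι → O} (r : GQ →* M2 O) (hc : MatCont O r)
  (hspan : Submodule.span O (Set.range r) = ⊤) (S : Finset ℕ)
  (hS : ∀ ℓ : ℕ, ℓ.Prime → ℓ ∉ S → ∃ i, num i = ℓ)
  (hatt : ∀ i, ∀ P : ValuationSubring (AlgebraicClosure ℚ), P.LiesOverPrime (num i) →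
    ∀ τ : GQ, P.IsFrobeniusAt τ (num i) → (r τ).trace = a i ∧ (r τ).det = ((num i : ℕ) : O))
  (hΛ' : ∀ x : Λ', (p : ℤ_[p]) • x = 0 → x = 0) (hX : ∃ x ∈ D.X O a, x ≠ 0)

include hpm hp0 hp2 hA hc hspan hS hatt hΛ' hX in
/-- **The projector of a `p`-new eigensystem.** -/
theorem LamDat.exists_proj : ∃ P : M2 O, P * P = P ∧ P.trace = 1 ∧
    (∀ σ ∈ A.decompositionSubgroup ℚ, P * r σ * (1 - P) = 0) ∧
    (∀ s ∈ A.inertiaSubgroupIn ℚ, P * (r s - 1) = 0) ∧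
    ∃ z : O, z ^ 2 = 1 ∧ ∀ Φ : GQ, A.IsFrobeniusAt Φ p → P * (r Φ - z • 1) = 0 := by
  have hflat : Module.Flat ℤ_[p] O := flat_O (p := p) hp0
  have hΛ : ∀ x : Λ, (p : ℤ_[p]) • x = 0 → x = 0 := padic_tf
  have hXsat : ∀ {x : O ⊗[ℤ_[p]] Λ} {o : O}, o ≠ 0 → o • x ∈ D.X O a → x ∈ D.X O a :=
    fun ho hx => D.X_sat hp0 hΛ hΛ' ho hx
  have hmem : ∀ (n : ℕ) (y : D.XT O a), (((p : O) ^ n) • y) ∈
      (maximalIdeal O ^ n) • (⊤ : Submodule O (D.XT O a)) := fun n y =>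
    Submodule.smul_mem_smul (Ideal.pow_mem_pow hpm n) trivial
  have hsep : ∀ x : D.XT O a, (∀ n : ℕ, x ∈ (maximalIdeal O ^ n) •
      (⊤ : Submodule O (D.XT O a))) → x = 0 := by
    intro x hx
    apply D.val_inj
    rw [map_zero]
    apply tens_sep
    intro n
    have h1 := Submodule.mem_map_of_mem (f := D.val O a) (hx n)
    rw [Submodule.map_smul''] at h1
    exact Submodule.smul_mono le_rfl le_top h1
  have htf : ∀ (o : O), o ≠ 0 → ∀ x : D.XT O a, o • x = 0 → x = 0 := by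
    intro o ho x hx
    apply D.val_inj
    rw [map_zero]
    refine tens_tf hp0 ho ?_
    rw [← map_smul, hx, map_zero]
  obtain ⟨x₀, hx₀, hx₀0⟩ := hX
  have hne : ∃ x : D.XT O a, x ≠ 0 := ⟨D.inc hx₀, fun h => hx₀0 (by
    rw [← D.val_inc hx₀, h, map_zero])⟩
  have hdet : ∀ ℓ : ℕ, ℓ.Prime → ℓ ∉ S → ∀ P : ValuationSubring (AlgebraicClosure ℚ),
      P.LiesOverPrime ℓ → ∀ τ : GQ, P.IsFrobeniusAt τ ℓ → (r τ).det = (ℓ : O) := by
    intro ℓ hℓ hℓS P hP τ hτ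
    obtain ⟨i, rfl⟩ := hS ℓ hℓ hℓS
    exact (hatt i P hP τ hτ).2
  have hcX : ActCont O (D.rX O a) := by
    intro n
    obtain ⟨L, hL, h⟩ := D.cont n
    refine ⟨L, hL, fun σ hσ x => ?_⟩
    obtain ⟨y, hy⟩ := bc_div (O := O) (D.rho σ - 1) (U := ⊤) ((p : ℤ_[p]) ^ n)
      (fun x _ => by
        obtain ⟨y, hy⟩ := h σ hσ x
        exact ⟨y, hy⟩) (x := D.val O a x) (by rw [Submodule.baseChange_top]; trivial)
    rw [map_pow, map_natCast, LinearMap.baseChange_sub, LinearMap.baseChange_one] at hy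
    have hy' : D.val O a (D.rX O a σ x - x) = ((p : O) ^ n) • y := by
      rw [map_sub]; exact hy
    have hyX : y ∈ D.X O a := hXsat (pow_ne_zero n hp0) (by
      rw [← hy']; exact D.val_mem _)
    have h2 : D.rX O a σ x - x = ((p : O) ^ n) • D.inc hyX := D.val_inj (by
      rw [hy', map_smul, D.val_inc])
    rw [h2]
    exact hmem n _
  have hfrob : ∀ ℓ : ℕ, ℓ.Prime → ℓ ∉ S → ∀ P : ValuationSubring (AlgebraicClosure ℚ),
      P.LiesOverPrime ℓ → ∀ τ : GQ, P.IsFrobeniusAt τ ℓ →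
        D.rX O a τ * D.rX O a τ - (r τ).trace • D.rX O a τ +
          (r τ).det • (1 : Module.End O (D.XT O a)) = 0 := by
    intro ℓ hℓ hℓS P hP τ hτ
    obtain ⟨i, rfl⟩ := hS ℓ hℓ hℓS
    rw [(hatt i P hP τ hτ).1, (hatt i P hP τ hτ).2]
    refine LinearMap.ext fun x => D.val_inj ?_
    have h1 := congrArg (fun f => f.baseChange O (D.val O a x)) (D.frob i P hP τ hτ)
    simp only [LinearMap.baseChange_add, LinearMap.baseChange_sub, LinearMap.baseChange_mul,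
      LinearMap.baseChange_smul, LinearMap.baseChange_one, LinearMap.baseChange_zero,
      LinearMap.add_apply, LinearMap.sub_apply, Module.End.mul_apply, LinearMap.smul_apply,
      Module.End.one_apply, LinearMap.zero_apply] at h1
    have h2 : (D.T i).baseChange O ((D.rho τ).baseChange O (D.val O a x)) =
        a i • (D.rho τ).baseChange O (D.val O a x) := (D.val_mem (D.rX O a τ x)).1 i
    rw [h2, ← algebraMap_smul O ((num i : ℕ) : ℤ_[p]), map_natCast] at h1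
    exact h1
  have hsat : ∀ x : D.XT O a, (p : O) • x ∈ (D.K.baseChange O).comap (D.val O a) →
      x ∈ (D.K.baseChange O).comap (D.val O a) := by
    intro x hx
    rw [Submodule.mem_comap, map_smul] at hx
    exact bc_sat hp0 D.sat hp0 hx
  have hdec : ∀ σ ∈ A.decompositionSubgroup ℚ, ∀ x ∈ (D.K.baseChange O).comap (D.val O a),
      D.rX O a σ x ∈ (D.K.baseChange O).comap (D.val O a) := by
    intro σ hσ x hx
    exact bc_mem (O := O) (D.rho σ) (fun y hy => D.Kdec σ hσ y hy) hx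
  have hin : ∀ s ∈ A.inertiaSubgroupIn ℚ, ∀ x : D.XT O a,
      D.rX O a s x - x ∈ (D.K.baseChange O).comap (D.val O a) := by
    intro s hs x
    have h1 := bc_mem (O := O) (D.rho s - 1) (U := D.new) (V := D.K) (fun y hy =>
      D.inert s hs y (D.mem_new.1 hy).1 (D.mem_new.1 hy).2)
      (D.mem_bc_new (D.val_mem x).2.1 (D.val_mem x).2.2)
    rw [LinearMap.baseChange_sub, LinearMap.baseChange_one] at h1
    exact h1
  have hww : ∀ x : D.XT O a, D.wX O a (D.wX O a x) = x := by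
    intro x
    apply D.val_inj
    rw [D.coe_wX, D.coe_wX, ← Module.End.mul_apply, ← LinearMap.baseChange_mul, D.ww,
      LinearMap.baseChange_one]
    rfl
  have hwr : ∀ (σ : GQ) (x : D.XT O a), D.wX O a (D.rX O a σ x) = D.rX O a σ (D.wX O a x) := by
    intro σ x
    apply D.val_inj
    rw [D.coe_wX, D.coe_rX, D.coe_rX, D.coe_wX, ← Module.End.mul_apply,
      ← LinearMap.baseChange_mul, D.wrho, LinearMap.baseChange_mul]
    rfl
  have hfr : ∀ Φ : GQ, A.IsFrobeniusAt Φ p → ∀ x : D.XT O a,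
      D.rX O a Φ x + D.wX O a x ∈ (D.K.baseChange O).comap (D.val O a) := by
    intro Φ hΦ x
    have h1 := bc_mem (O := O) (D.rho Φ + D.w) (U := D.new) (V := D.K) (fun y hy =>
      D.frobp Φ hΦ y (D.mem_new.1 hy).1 (D.mem_new.1 hy).2)
      (D.mem_bc_new (D.val_mem x).2.1 (D.val_mem x).2.2)
    rw [LinearMap.baseChange_add] at h1
    exact h1
  have hcyc : ∀ ζ : Qb, IsPrimitiveRoot ζ p → ∀ s ∈ A.inertiaSubgroupIn ℚ, s ζ = ζ ^ 2 →
      ∀ x ∈ (D.K.baseChange O).comap (D.val O a), ∃ y : D.XT O a,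
        D.rX O a s x - ((2 : ℕ) : O) • x = (p : O) • y := by
    intro ζ hζ s₀ hs₀ hs₀ζ x hx
    obtain ⟨y, hy⟩ := bc_div (O := O) (D.rho s₀ - ((2 : ℕ) : ℤ_[p]) • 1) (U := D.K) (p : ℤ_[p])
      (fun x hx => by
        obtain ⟨y, hy⟩ := D.cyc ζ hζ 2 s₀ hs₀ hs₀ζ x hx
        exact ⟨y, by rw [← hy]; rfl⟩) (x := D.val O a x) hx
    have hy' : D.val O a (D.rX O a s₀ x - ((2 : ℕ) : O) • x) = (p : O) • y := by
      rw [map_natCast, LinearMap.baseChange_sub, LinearMap.baseChange_smul,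
        LinearMap.baseChange_one, LinearMap.sub_apply, LinearMap.smul_apply, Module.End.one_apply,
        ← algebraMap_smul O ((2 : ℕ) : ℤ_[p]), map_natCast] at hy
      rw [map_sub, map_smul]
      exact hy
    have hyX : y ∈ D.X O a := hXsat hp0 (by
      rw [← hy']; exact D.val_mem _)
    exact ⟨D.inc hyX, D.val_inj (by rw [hy', map_smul, D.val_inc])⟩
  exact exists_proj_abs hpm hp2 hA r hc hspan S hdet hsep htf hne hp0 (D.rX O a) hcX hfrob
    ((D.K.baseChange O).comap (D.val O a)) hsat hdec hin (D.wX O a) hww hwr hfr hcyc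

end main

end Fermat.Agent.OrdNew
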