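import Fermat.Agent.OrdNew.Lam
import Fermat.Agent.ZTqb.Final

/-!
# Eigenvectors over a discrete valuation ring
-/

set_option autoImplicit false
set_option linter.unusedSectionVars false

noncomputable section

namespace Fermat.Agent.OrdNew

open ModularCurve AlgebraicCurve CongruenceSubgroup ModularCurve.Period
open Fermat.Agent.ZDegI Fermat.Agent.HeckeHom Fermat.Agent.TorsCmp
open scoped TensorProduct MatrixGroups

section kap

variable {p : ℕ} [hp : Fact p.Prime] (O : Type) [CommRing O] [IsDomain O] [CharZero O]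
  [Algebra ℤ_[p] O] (M : ℕ) [NeZero M]

/-- extension of scalars -/
def kapL : Lm p M →ₗ[ℤ_[p]] parabolicHoms O (Gamma0 M) O where
  toFun φ := ⟨(algebraMap ℤ_[p] O).toAddMonoidHom.comp φ, fun γ hγ => by
    rw [AddMonoidHom.comp_apply, φ.2 γ hγ, map_zero]⟩
  map_add' φ ψ := Subtype.ext (AddMonoidHom.ext fun g => map_add (algebraMap ℤ_[p] O) _ _)
  map_smul' c φ := Subtype.ext (AddMonoidHom.ext fun g => by
    show algebraMap ℤ_[p] O (c • (φ : Additive (Gamma0 M) →+ ℤ_[p]) g) =
      c • algebraMap ℤ_[p] O ((φ : Additive (Gamma0 M) →+ ℤ_[p]) g)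
    rw [smul_eq_mul, map_mul, Algebra.smul_def])

theorem kapL_apply (φ : Lm p M) (g : Additive (Gamma0 M)) :
    (kapL O M φ : Additive (Gamma0 M) →+ O) g =
      algebraMap ℤ_[p] O ((φ : Additive (Gamma0 M) →+ ℤ_[p]) g) := rfl

/-- extension of scalars -/
def kap : O ⊗[ℤ_[p]] Lm p M →ₗ[O] parabolicHoms O (Gamma0 M) O :=
  (kapL O M).liftBaseChange O

theorem kap_tmul (o : O) (φ : Lm p M) : kap O M (o ⊗ₜ φ) = o • kapL O M φ :=
  LinearMap.liftBaseChange_tmul _ _ _ _

theorem parBasis_apply (R : Type) [CommRing R] [CharZero R] [IsAddTorsionFree R]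
    (i : Fin (Module.finrank ℤ (parabolicHoms ℤ (Gamma0 M) ℤ))) :
    parBasis M R i = castHom M R (Module.finBasis ℤ _ i) := by
  unfold parBasis
  exact Module.Basis.mk_apply _ _ i

theorem kap_bijective : Function.Bijective (kap (p := p) O M) := by
  let b := (parBasis M ℤ_[p]).baseChange O
  let b' := parBasis M O
  have h1 : kap (p := p) O M = (b.equiv b' (Equiv.refl _)).toLinearMap := by
    refine b.ext fun i => ?_
    rw [LinearEquiv.coe_coe, Module.Basis.equiv_apply, Equiv.refl_apply,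
      Module.Basis.baseChange_apply, kap_tmul, one_smul]
    refine Subtype.ext (AddMonoidHom.ext fun g => ?_)
    rw [kapL_apply, parBasis_apply, parBasis_apply, castHom_apply, castHom_apply, map_intCast]
  rw [h1]
  exact (b.equiv b' (Equiv.refl _)).bijective

theorem kap_hecke {l : ℕ} (hl : l.Prime) (hlM : ¬ l ∣ M) (x : O ⊗[ℤ_[p]] Lm p M) :
    kap O M ((parHecke ℤ_[p] ℤ_[p] hl hlM).baseChange O x) =
      parHecke O O hl hlM (kap O M x) := by
  induction x using TensorProduct.induction_on with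
  | zero => rw [map_zero, map_zero, map_zero]
  | add x y hx hy => rw [map_add, map_add, hx, hy, map_add, map_add]
  | tmul o φ =>
    rw [LinearMap.baseChange_tmul, kap_tmul, kap_tmul, map_smul]
    congr 1
    refine Subtype.ext ?_
    rw [coe_parHecke]
    show (algebraMap ℤ_[p] O).toAddMonoidHom.comp (heckeHom hl hlM ℤ_[p] φ) =
      heckeHom hl hlM O ((algebraMap ℤ_[p] O).toAddMonoidHom.comp φ)
    rw [heckeHom_comp]

end kap

section clear

variable {O : Type} [CommRing O] [IsDomain O] {E : Type} [Field E] [CharZero E] (ι : O →+* E)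
  (hι : Function.Injective ι) {M m : ℕ} [NeZero M] (hm : M ∣ m) (a : TW.Pr m → O)

include hι in
/-- **Descent of eigenvectors.** -/
theorem exists_eigen (φ : Additive (Gamma0 M) →+ E) (hφ : φ ≠ 0)
    (hpar : φ ∈ parabolicHoms E (Gamma0 M) E)
    (hT : ∀ i : TW.Pr m, heckeHom i.2.1 (fun h => i.2.2 (h.trans hm)) E φ = ι (a i) • φ) :
    ∃ ψ : parabolicHoms O (Gamma0 M) O, ψ ≠ 0 ∧
      ∀ i : TW.Pr m, parHecke O O i.2.1 (fun h => i.2.2 (h.trans hm)) ψ = a i • ψ := by
  let K := FractionRing O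
  letI : Algebra K E := (IsFractionRing.lift hι).toAlgebra
  have hK : ∀ o : O, algebraMap K E (algebraMap O K o) = ι o := fun o =>
    IsFractionRing.lift_algebraMap hι o
  obtain ⟨n, e, f, -, hf0, hf⟩ := ZTqb.exists_decomp' φ
  obtain ⟨g, hg⟩ : ∃ g, φ g ≠ 0 := by
    by_contra h
    push Not at h
    exact hφ (AddMonoidHom.ext h)
  obtain ⟨lam, hlam⟩ : ∃ lam : Module.Dual K E, lam (φ g) ≠ 0 := by
    by_contra h
    push Not at h
    exact hg ((Module.forall_dual_apply_eq_zero_iff K (φ g)).1 h)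
  obtain ⟨d, hd⟩ := IsLocalization.exist_integer_multiples_of_finite (nonZeroDivisors O)
    (fun i => lam (e i))
  choose b hb using hd
  have hd0 : algebraMap O K d ≠ 0 := by
    intro h
    exact nonZeroDivisors.coe_ne_zero d ((FaithfulSMul.algebraMap_injective O K)
      (h.trans (map_zero _).symm))
  let ψ : Additive (Gamma0 M) →+ O := ∑ i, ((zmultiplesHom O) (b i)).comp (f i)
  have hψ : ∀ γ, ψ γ = ∑ i, f i γ • b i := fun γ => by
    rw [AddMonoidHom.finsetSum_apply]
    rfl
  have hψ1 : ∀ γ, algebraMap O K (ψ γ) = algebraMap O K d * lam (φ γ) := by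
    intro γ
    rw [hψ, map_sum, hf, map_sum, Finset.mul_sum]
    refine Finset.sum_congr rfl fun i _ => ?_
    rw [map_zsmul, map_zsmul, hb, mul_smul_comm]
    congr 1
    exact Algebra.smul_def _ _
  have hinj := FaithfulSMul.algebraMap_injective O K
  have hpar' : ψ ∈ parabolicHoms O (Gamma0 M) O := fun γ hγ => by
    apply hinj
    rw [hψ1, hpar γ hγ, map_zero, mul_zero, map_zero]
  refine ⟨⟨ψ, hpar'⟩, fun h => ?_, fun i => ?_⟩
  · have h1 := DFunLike.congr_fun (congrArg Subtype.val h) g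
    have h2 := hψ1 g
    rw [show ψ g = 0 from h1, map_zero] at h2
    exact (mul_ne_zero hd0 hlam) h2.symm
  · refine Subtype.ext (AddMonoidHom.ext fun γ => hinj ?_)
    rw [coe_parHecke]
    have e1 : (algebraMap O K).toAddMonoidHom.comp ψ =
        (((AddMonoidHom.mulLeft (algebraMap O K d)).comp (lam : E →+ K))).comp φ :=
      AddMonoidHom.ext fun γ => hψ1 γ
    have e2 := DFunLike.congr_fun (congrArg (heckeHom i.2.1 (fun h => i.2.2 (h.trans hm)) K) e1) γ
    rw [heckeHom_comp, heckeHom_comp, hT] at e2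
    have e3 : algebraMap O K (heckeHom i.2.1 (fun h => i.2.2 (h.trans hm)) O ψ γ) =
      algebraMap O K d * lam (ι (a i) * φ γ) := e2
    have e4 : lam (ι (a i) * φ γ) = algebraMap O K (a i) * lam (φ γ) := by
      rw [← hK, ← Algebra.smul_def, map_smul, smul_eq_mul]
    rw [e3, e4]
    show _ = algebraMap O K (a i * ψ γ)
    rw [map_mul, hψ1]
    ring

end clear

end Fermat.Agent.OrdNew
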