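import Fermat.Agent.FrobDensity.Final
import Fermat.Agent.DefRing.Mat
import Fermat.Agent.FlatT.Rel
import Fermat.Agent.OrdNew.Abs

/-!
# The characteristic polynomial relation for all group elements
-/

set_option autoImplicit false

noncomputable section

namespace Fermat.Agent.OrdNew

open IsLocalRing Matrix
open Fermat.Agent.DefRing (GQ M2 MatCont)
open Fermat.Agent.HeckeGal (lucas)

section

variable {T : Type} [CommRing T]

theorem lucas_eq_trace (N : M2 T) (j : ℕ) : lucas N.trace N.det j = (N ^ j).trace := by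
  have e1 : ∀ Y : M2 T, Y + Y.adjugate = Y.trace • (1 : M2 T) := by
    intro Y
    rw [adjugate_fin_two]
    refine Matrix.ext fun i j => ?_
    fin_cases i <;> fin_cases j <;> simp [trace_fin_two] <;> ring
  have h1 := FlatT.pow_add_pow_eq_lucas N N.adjugate N.trace N.det
    (by rw [mul_adjugate, adjugate_mul]) (e1 N) (by rw [mul_adjugate]) j
  rw [← adjugate_pow, e1] at h1
  have h2 := congrFun (congrFun h1 0) 0
  simpa using h2.symm

variable [IsLocalRing T] {X : Type} [AddCommGroup X] [Module T X]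

omit [IsLocalRing T] in
theorem end_mem_smul_top (I : Ideal T) (f : Module.End T X) {x : X}
    (hx : x ∈ I • (⊤ : Submodule T X)) : f x ∈ I • (⊤ : Submodule T X) := by
  have h1 : f x ∈ (I • (⊤ : Submodule T X)).map f := Submodule.mem_map_of_mem hx
  rw [Submodule.map_smul''] at h1
  exact Submodule.smul_mono le_rfl le_top h1

/-- adic continuity of an action -/
def ActCont (T : Type) [CommRing T] [IsLocalRing T] {X : Type} [AddCommGroup X] [Module T X]
    (ρ : GQ →* Module.End T X) : Prop :=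
  ∀ n : ℕ, ∃ L : IntermediateField ℚ (AlgebraicClosure ℚ), FiniteDimensional ℚ L ∧
    ∀ σ : GQ, (∀ x ∈ L, σ x = x) → ∀ x : X, ρ σ x - x ∈ (maximalIdeal T ^ n) • (⊤ : Submodule T X)

/-- **The relation for all group elements.** -/
theorem rel_all (hsep : ∀ x : X, (∀ n : ℕ, x ∈ (maximalIdeal T ^ n) • (⊤ : Submodule T X)) → x = 0)
    (ρ : GQ →* Module.End T X) (hcX : ActCont T ρ) (r : GQ →* M2 T) (hc : MatCont T r)
    (S : Finset ℕ)
    (hfrob : ∀ ℓ : ℕ, ℓ.Prime → ℓ ∉ S → ∀ P : ValuationSubring (AlgebraicClosure ℚ),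
      P.LiesOverPrime ℓ → ∀ τ : GQ, P.IsFrobeniusAt τ ℓ →
        ρ τ * ρ τ - (r τ).trace • ρ τ + (r τ).det • (1 : Module.End T X) = 0) (g : GQ) :
    ρ g + (r g).det • ρ g⁻¹ = (r g).trace • (1 : Module.End T X) := by
  rw [← sub_eq_zero]
  refine LinearMap.ext fun x => ?_
  rw [LinearMap.zero_apply]
  apply hsep
  intro n
  obtain ⟨L₁, hL₁, h₁⟩ := hc n
  obtain ⟨L₂, hL₂, h₂⟩ := hcX n
  obtain ⟨ℓ, hℓ, hℓS, P, hP, -, τ, hτ, ⟨j, hj⟩, -⟩ :=
    FrobDensity.exists_frobenius_pow_eq (L₁ ⊔ L₂)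
      (IntermediateField.finiteDimensional_sup L₁ L₂) g S
  have hinv : ∀ σ : GQ, ρ σ * ρ σ⁻¹ = 1 := fun σ => by
    rw [← map_mul, mul_inv_cancel, map_one]
  have hinv' : ∀ σ : GQ, ρ σ⁻¹ * ρ σ = 1 := fun σ => by
    rw [← map_mul, inv_mul_cancel, map_one]
  have hrel : ρ τ + (r τ).det • ρ τ⁻¹ = (r τ).trace • (1 : Module.End T X) := by
    have h3 := congrArg (· * ρ τ⁻¹) (hfrob ℓ hℓ hℓS P hP τ hτ)
    simp only [add_mul, sub_mul, zero_mul, smul_mul_assoc, one_mul, mul_assoc, hinv, mul_one] at h3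
    rw [sub_add_eq_add_sub, sub_eq_zero] at h3
    exact h3
  have hxy : ρ τ * ((r τ).det • ρ τ⁻¹) = (r τ).det • (1 : Module.End T X) := by
    rw [mul_smul_comm, hinv]
  have hyx : ((r τ).det • ρ τ⁻¹) * ρ τ = (r τ).det • (1 : Module.End T X) := by
    rw [smul_mul_assoc, hinv']
  have hpow := FlatT.pow_add_pow_eq_lucas (ρ τ) ((r τ).det • ρ τ⁻¹) (r τ).trace (r τ).det
    (hxy.trans hyx.symm) hrel hxy j
  rw [lucas_eq_trace, ← map_pow r, _root_.smul_pow, ← det_pow, ← map_pow r, ← map_pow ρ,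
    ← map_pow ρ, inv_pow] at hpow
  set h : GQ := τ ^ j with hh
  -- comparison of `h` and `g`
  have hfix : ∀ x ∈ L₁ ⊔ L₂, (h⁻¹ * g) x = x := by
    intro x hx
    rw [AlgEquiv.mul_apply, ← hj x hx]
    exact h.symm_apply_apply x
  have hfix' : ∀ x ∈ L₁ ⊔ L₂, (h⁻¹ * g)⁻¹ x = x := by
    intro x hx
    have := hfix x hx
    conv_lhs => rw [← this]
    exact (h⁻¹ * g).symm_apply_apply x
  have hg : g = h * (h⁻¹ * g) := by group
  have hu := h₁ (h⁻¹ * g) fun x hx => hfix x ((le_sup_left : L₁ ≤ L₁ ⊔ L₂) hx)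
  have hmat : ∀ a b, (r g - r h) a b ∈ maximalIdeal T ^ n := by
    intro a b
    have e : r g - r h = r h * (r (h⁻¹ * g) - 1) := by
      rw [mul_sub, mul_one, ← map_mul, ← hg]
    rw [e, Matrix.mul_apply]
    exact Ideal.sum_mem _ fun c _ => Ideal.mul_mem_left _ _ (hu c b)
  have htr : (r g).trace - (r h).trace ∈ maximalIdeal T ^ n := by
    rw [← trace_sub, trace_fin_two]
    exact Ideal.add_mem _ (hmat 0 0) (hmat 1 1)
  have hdet : (r g).det - (r h).det ∈ maximalIdeal T ^ n := by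
    rw [det_fin_two, det_fin_two]
    have e : r g 0 0 * r g 1 1 - r g 0 1 * r g 1 0 - (r h 0 0 * r h 1 1 - r h 0 1 * r h 1 0) =
      (r g - r h) 0 0 * r g 1 1 + r h 0 0 * (r g - r h) 1 1 -
        ((r g - r h) 0 1 * r g 1 0 + r h 0 1 * (r g - r h) 1 0) := by
      simp only [Matrix.sub_apply]; ring
    rw [e]
    exact Ideal.sub_mem _ (Ideal.add_mem _ (Ideal.mul_mem_right _ _ (hmat 0 0))
      (Ideal.mul_mem_left _ _ (hmat 1 1))) (Ideal.add_mem _ (Ideal.mul_mem_right _ _ (hmat 0 1))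
      (Ideal.mul_mem_left _ _ (hmat 1 0)))
  have hX1 : ρ g x - ρ h x ∈ (maximalIdeal T ^ n) • (⊤ : Submodule T X) := by
    have e : ρ g x - ρ h x = ρ h (ρ (h⁻¹ * g) x - x) := by
      rw [map_sub, ← Module.End.mul_apply, ← map_mul, ← hg]
    rw [e]
    exact end_mem_smul_top _ _ (h₂ _ (fun x hx => hfix x ((le_sup_right : L₂ ≤ L₁ ⊔ L₂) hx)) x)
  have hX2 : ρ g⁻¹ x - ρ h⁻¹ x ∈ (maximalIdeal T ^ n) • (⊤ : Submodule T X) := by
    have e : ρ g⁻¹ x - ρ h⁻¹ x = ρ (h⁻¹ * g)⁻¹ (ρ h⁻¹ x) - ρ h⁻¹ x := by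
      rw [← Module.End.mul_apply, ← map_mul]
      congr 3
      group
    rw [e]
    exact h₂ _ (fun x hx => hfix' x ((le_sup_right : L₂ ≤ L₁ ⊔ L₂) hx)) _
  have h7 := congrArg (fun f : Module.End T X => f x) hpow
  simp only [LinearMap.add_apply, LinearMap.smul_apply, Module.End.one_apply] at h7
  rw [LinearMap.sub_apply, LinearMap.add_apply, LinearMap.smul_apply, LinearMap.smul_apply,
    Module.End.one_apply]
  have e : ρ g x + (r g).det • ρ g⁻¹ x - (r g).trace • x =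
      (ρ g x - ρ h x) + ((r g).det - (r h).det) • ρ g⁻¹ x + (r h).det • (ρ g⁻¹ x - ρ h⁻¹ x) -
        ((r g).trace - (r h).trace) • x + (ρ h x + (r h).det • ρ h⁻¹ x - (r h).trace • x) := by
    module
  rw [e, h7, sub_self, add_zero]
  refine Submodule.sub_mem _ (Submodule.add_mem _ (Submodule.add_mem _ hX1
    (Submodule.smul_mem_smul hdet trivial)) (Submodule.smul_mem _ _ hX2))
    (Submodule.smul_mem_smul htr trivial)

/-- **Morita**: the action factors through the matrix algebra. -/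
theorem exists_psi (hsep : ∀ x : X, (∀ n : ℕ, x ∈ (maximalIdeal T ^ n) • (⊤ : Submodule T X)) →
      x = 0)
    (h2 : ∀ x : X, x + x = 0 → x = 0)
    (ρ : GQ →* Module.End T X) (hcX : ActCont T ρ) (r : GQ →* M2 T) (hc : MatCont T r)
    (hspan : Submodule.span T (Set.range r) = ⊤)
    (S : Finset ℕ)
    (hfrob : ∀ ℓ : ℕ, ℓ.Prime → ℓ ∉ S → ∀ P : ValuationSubring (AlgebraicClosure ℚ),
      P.LiesOverPrime ℓ → ∀ τ : GQ, P.IsFrobeniusAt τ ℓ →
        ρ τ * ρ τ - (r τ).trace • ρ τ + (r τ).det • (1 : Module.End T X) = 0) :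
    ∃ Ψ : M2 T →ₐ[T] Module.End T X, ∀ g, Ψ (r g) = ρ g := by
  let e : M2 T ≃ₐ[T] Module.End T (Fin 2 → T) := Matrix.toLinAlgEquiv'
  let r' : GQ →* Module.End T (Fin 2 → T) := (e.toMulEquiv.toMonoidHom).comp r
  have hr' : ∀ g, r' g = e (r g) := fun _ => rfl
  let δ : GQ →* T := (Matrix.detMonoidHom (n := Fin 2) (R := T)).comp r
  have hδ : ∀ g, δ g = (r g).det := fun _ => rfl
  have hspan' : Submodule.span T (Set.range r') = ⊤ := by
    have h1 : Submodule.span T ((e.toLinearMap : M2 T → _) '' Set.range r) = ⊤ := by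
      rw [Submodule.span_image e.toLinearMap, hspan, Submodule.map_top]
      exact LinearMap.range_eq_top.mpr e.surjective
    rw [← Set.range_comp] at h1
    exact h1
  have htr : ∀ N : M2 T, LinearMap.trace T (Fin 2 → T) (e N) = N.trace := fun N =>
    Matrix.trace_toLin'_eq N
  obtain ⟨Ψ, hΨ⟩ := FlatT.exists_lift (Pi.basisFun T (Fin 2)) r' ρ δ hspan' (fun g => by
    rw [hr', htr, hδ]
    exact rel_all hsep ρ hcX r hc S hfrob g) h2
  exact ⟨Ψ.comp e.toAlgHom, fun g => hΨ g⟩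

end

end Fermat.Agent.OrdNew
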